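import Fermat.Agent.S30.Skeleton
import Fermat.Agent.S30.Skeleton2

/-!
# P-GALREP, S31 (unramified outside `S`): interface skeleton

Architect: helper30.  Every declaration is a frozen interface `Prop`; nothing is assumed.

Design (no Petersson product, no reducedness of the Hecke algebra, no Carayol descent):
* `KerOfTraceStatement` (pure algebra): for a residually absolutely irreducible representation
  over a local ring, an element `σ` with `tr ρ(σ g) = tr ρ(g)` for all `g` acts trivially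
  (Burnside + Nakayama: the `T`-span of `ρ(G)` is the full matrix algebra, and the trace form
  is perfect).
* `TraceInvarianceStatement` (geometry + Chebotarev): the trace of the representation of a
  Hecke–Galois datum is invariant under inertia at `q ∉ S`, because
  `tr ρ(g) = λ (g + d(g) g⁻¹)`, where `g + d(g) g⁻¹` is an element of the `p`-adic Hecke algebra
  acting on the Tate module of `J₀(N)`, on which inertia at `q` acts trivially.
-/

set_option autoImplicit false

namespace Fermat.Agent.S31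

open Fermat.Agent.S29 (GQ WeakChebotarev HeckeGaloisCommute EichlerShimuraTorsion
  TorsionFiniteLevel)
open Fermat.Agent.S30 (heckeTAll TateStatement)

/-- **C1 (KerOfTrace).** -/
def KerOfTraceStatement : Prop :=
  ∀ (T : Type) [CommRing T] [IsLocalRing T] (ρ : GaloisRepAdic T),
    ρ.residual.IsAbsolutelyIrreducible →
    ∀ σ : GQ, (∀ g : GQ, LinearMap.trace T ρ.V (ρ.ρ (σ * g)) = LinearMap.trace T ρ.V (ρ.ρ g)) →
      ρ.ρ σ = 1

/-- **IN-JAC-key, lattice form.**  There is a `ℤ`-subalgebra `L` of the endomorphisms of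
`S₂(Γ₀(N))`, finitely generated as a `ℤ`-module, such that: if an integer polynomial `P` in the
Hecke operators `T_ℓ` (`ℓ ∤ N * n`) kills `J₀(N)[n]`, then `P(T) = n • B` with `B ∈ L`.
(`L` = the operators induced by endomorphisms of the lattice `H¹_par(Γ₀(N), ℤ)`, into whose
complexification the cusp forms embed Hecke-equivariantly by the period map.)
It implies `Fermat.Agent.S30.HeckeKeyInt N n` for all `n`. -/
def HeckeKeyLattice (N : ℕ) [NeZero N] : Prop :=
  ∃ L : Subalgebra ℤ (Module.End ℂ (CuspForm (CongruenceSubgroup.Gamma0 N) 2)),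
    (Subalgebra.toSubmodule L).FG ∧
    ∀ (n : ℕ) (P : MvPolynomial Nat.Primes ℤ),
      (∀ ℓ ∈ P.vars, ¬ (ℓ : ℕ) ∣ N * n) →
      (letI := ModularCurve.heckeModuleBar N
        ∀ x : ModularCurve.JZero N, n • x = 0 → P • x = 0) →
      ∃ B ∈ L,
        ((MvPolynomial.aeval (R := ℤ) (heckeTAll N) P : CuspForm.heckeAlgebra N 2 (∅ : Set ℕ)) :
          Module.End ℂ (CuspForm (CongruenceSubgroup.Gamma0 N) 2)) = (n : ℂ) • B

/-- **C2 (TraceInvariance).** -/
def TraceInvarianceStatement (N p : ℕ) [NeZero N] : Prop :=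
  p.Prime → WeakChebotarev → HeckeGaloisCommute N → EichlerShimuraTorsion N p →
    (∀ k : ℕ, TorsionFiniteLevel N (p ^ k)) → HeckeKeyLattice N →
    ∀ (S : Finset ℕ), p ∈ S → (∀ q : ℕ, q.Prime → q ∣ N → q ∈ S) →
    ∀ (𝒪 : Type) [CommRing 𝒪] [IsDomain 𝒪] [IsDiscreteValuationRing 𝒪]
      [IsAdicComplete (IsLocalRing.maximalIdeal 𝒪) 𝒪],
      (p : 𝒪) ∈ IsLocalRing.maximalIdeal 𝒪 →
    ∀ (θ : CuspForm.heckeAlgebra N 2 (↑S : Set ℕ) →+* IsLocalRing.ResidueField 𝒪)
      (T : Type) [CommRing T] [IsLocalRing T] [IsNoetherianRing T]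
      [IsAdicComplete (IsLocalRing.maximalIdeal T) T] [Algebra 𝒪 T]
      [IsLocalHom (algebraMap 𝒪 T)] [Module.Finite 𝒪 T] [Module.Free 𝒪 T]
      (H : CuspForm.HeckeGaloisRepDatum N (↑S : Set ℕ) 𝒪 θ T),
      ∀ q : ℕ, q.Prime → q ∉ S →
        ∀ A : ValuationSubring (AlgebraicClosure ℚ), A.LiesOverPrime q →
          ∀ σ ∈ A.inertiaSubgroupIn ℚ, ∀ g : GQ,
            LinearMap.trace T H.ρ.V (H.ρ.ρ (σ * g)) = LinearMap.trace T H.ρ.V (H.ρ.ρ g)

/-- **A3b (TatePackage).**  The `p`-adic Tate module `M` of `J₀(N)` with its Galois action `ρ`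
and Hecke action `Θ` (a ring homomorphism from the polynomial ring in the `T_ℓ`): commuting
actions, continuity, unramified at `q ∤ N p`, the Eichler–Shimura relation at `ℓ ∤ N p`, and the
link to the torsion points: if `P(T) M ⊆ p ^ k M` then `p ^ m • P` kills `J₀(N)[p ^ (k + m)]`
for some `m`.  Shared by A4 (PackageAdic) and C2 (TraceInvariance). -/
def TatePackageStatement (N p : ℕ) [NeZero N] [Fact p.Prime] : Prop :=
  TateStatement → HeckeGaloisCommute N → EichlerShimuraTorsion N p →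
    (∀ k : ℕ, TorsionFiniteLevel N (p ^ k)) →
    ∃ (M : Type) (_ : AddCommGroup M) (_ : Module ℤ_[p] M) (_ : Module.Free ℤ_[p] M)
      (_ : Module.Finite ℤ_[p] M) (ρ : GQ →* Module.End ℤ_[p] M)
      (Θ : MvPolynomial Nat.Primes ℤ →+* Module.End ℤ_[p] M),
      (∀ (P : MvPolynomial Nat.Primes ℤ) (g : GQ), Commute (Θ P) (ρ g)) ∧
      GaloisActionIsAdicContinuous ℤ_[p] ρ ∧
      (∀ q : ℕ, q.Prime → ¬ q ∣ N * p →
        ∀ A : ValuationSubring (AlgebraicClosure ℚ), A.LiesOverPrime q →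
          ∀ σ ∈ A.inertiaSubgroupIn ℚ, ρ σ = 1) ∧
      (∀ (ℓ : ℕ) (hℓ : ℓ.Prime), ¬ ℓ ∣ N * p →
        ∀ A : ValuationSubring (AlgebraicClosure ℚ), A.LiesOverPrime ℓ →
          ∀ σ : GQ, A.IsFrobeniusAt σ ℓ →
            ρ σ * ρ σ - Θ (MvPolynomial.X ⟨ℓ, hℓ⟩) * ρ σ
              + (ℓ : ℤ_[p]) • (1 : Module.End ℤ_[p] M) = 0) ∧
      (∀ (P : MvPolynomial Nat.Primes ℤ) (k : ℕ),
        (∀ v : M, ∃ w : M, Θ P v = ((p : ℤ_[p]) ^ k) • w) →
        ∃ m : ℕ, letI := ModularCurve.heckeModuleBar N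
          ∀ x : ModularCurve.JZero N, p ^ (k + m) • x = 0 →
            (MvPolynomial.C ((p : ℤ) ^ m) * P) • x = 0)

end Fermat.Agent.S31
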