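import Fermat.Agent.S31.Skeleton
import Fermat.Agent.S30.CycCharAdic
import Fermat.Agent.S30.AdicClosure

/-!
# P-GALREP, S31, module C2: invariance of the trace under inertia

`traceInvariance_of` : the trace of the representation of a Hecke–Galois datum is invariant
under the inertia groups at the primes `q ∉ S`.

Let `M` be the `p`-adic Tate module of `J₀(N)` with its Galois action `ρ` and Hecke action `Θ`,
`d` the `p`-adic cyclotomic character and `s g = ρ g + d g • ρ g⁻¹`.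

* (approximation) for every `g` and `n` there is an integer polynomial `Q` in the `T_ℓ`,
  `ℓ ∉ S`, with `s g ≡ Θ Q` modulo `p ^ n` on `M` and `tr ρ_T g ≡ π (Q (T))` modulo `m_T ^ n`:
  weak Chebotarev gives a Frobenius `f` and `k` with `g = f ^ k` on a suitable finite level, and
  `Q` is the `k`-th power-sum polynomial of `X ^ 2 - T_ℓ X + ℓ`.
* (key divisibility) if `Θ Q ≡ 0` modulo `p ^ n` then `π (Q (T)) ∈ m_T ^ (n - c)` with `c`
  independent of `n` and `Q`: the link between `M` and the torsion points, the lattice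
  hypothesis, and the finiteness of the saturation index of the Hecke algebra in the lattice.
* inertia at `q ∉ S` acts trivially on `M` and on roots of unity of `p`-power order, so
  `s (σ g) = s g`; hence `tr ρ_T (σ g) - tr ρ_T g` lies in every power of `m_T`.
-/

set_option autoImplicit false

open Polynomial

namespace Fermat.Agent.S31

open Fermat.Agent.S29 (GQ WeakChebotarev HeckeGaloisCommute EichlerShimuraTorsion
  TorsionFiniteLevel)
open Fermat.Agent.S30 (heckeTAll TateStatement acTrace ac_map_mem ac_form_mem ac_smul_mem)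

/-! ## Endomorphisms which are small modulo an ideal -/

section Small

variable {R : Type*} [CommRing R] {W : Type*} [AddCommGroup W] [Module R W]

/-- `φ` maps the whole module into `I • ⊤`. -/
def TI_Small (I : Ideal R) (φ : Module.End R W) : Prop :=
  ∀ w : W, φ w ∈ I • (⊤ : Submodule R W)

theorem TI_Small.add {I : Ideal R} {φ ψ : Module.End R W} (h₁ : TI_Small I φ)
    (h₂ : TI_Small I ψ) : TI_Small I (φ + ψ) := fun w => by
  rw [LinearMap.add_apply]
  exact Submodule.add_mem _ (h₁ w) (h₂ w)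

theorem TI_Small.sub {I : Ideal R} {φ ψ : Module.End R W} (h₁ : TI_Small I φ)
    (h₂ : TI_Small I ψ) : TI_Small I (φ - ψ) := fun w => by
  rw [LinearMap.sub_apply]
  exact Submodule.sub_mem _ (h₁ w) (h₂ w)

theorem TI_Small.smul {I : Ideal R} {φ : Module.End R W} (a : R) (h₁ : TI_Small I φ) :
    TI_Small I (a • φ) := fun w => by
  rw [LinearMap.smul_apply]
  exact Submodule.smul_mem _ _ (h₁ w)

theorem TI_Small.mul_left {I : Ideal R} {φ : Module.End R W} (ψ : Module.End R W)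
    (h₁ : TI_Small I φ) : TI_Small I (ψ * φ) := fun w => by
  rw [Module.End.mul_apply]
  exact ac_map_mem I ψ (h₁ w)

theorem TI_Small.mul_right {I : Ideal R} {φ : Module.End R W} (ψ : Module.End R W)
    (h₁ : TI_Small I φ) : TI_Small I (φ * ψ) := fun w => by
  rw [Module.End.mul_apply]
  exact h₁ (ψ w)

theorem TI_small_smul {I : Ideal R} {a : R} (ha : a ∈ I) (φ : Module.End R W) :
    TI_Small I (a • φ) := fun w => by
  rw [LinearMap.smul_apply]
  exact ac_smul_mem I ha _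

/-- The trace of a small endomorphism of a finite free module lies in the ideal. -/
theorem TI_trace_mem [Module.Free R W] [Module.Finite R W] {I : Ideal R}
    {φ : Module.End R W} (h : TI_Small I φ) : LinearMap.trace R W φ ∈ I := by
  classical
  let b := Module.Free.chooseBasis R W
  rw [LinearMap.trace_eq_matrix_trace R b φ, Matrix.trace]
  refine I.sum_mem fun i _ => ?_
  rw [Matrix.diag_apply, LinearMap.toMatrix_apply]
  exact ac_form_mem I (b.coord i) (h (b i))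

end Small

/-- Membership in `span {a} • ⊤` is divisibility by `a`. -/
theorem TI_mem_span_smul_iff {R : Type*} [CommRing R] {W : Type*} [AddCommGroup W] [Module R W]
    (a : R) (w : W) :
    w ∈ (Ideal.span {a} : Ideal R) • (⊤ : Submodule R W) ↔ ∃ v : W, w = a • v := by
  rw [Submodule.ideal_span_singleton_smul, Submodule.mem_smul_pointwise_iff_exists]
  constructor
  · rintro ⟨v, -, hv⟩
    exact ⟨v, hv.symm⟩
  · rintro ⟨v, hv⟩
    exact ⟨v, Submodule.mem_top, hv.symm⟩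

/-! ## Power sums -/

section PowerSums

/-- Newton's recursion for the power sums of two commuting elements. -/
theorem TI_pow_add_pow {E : Type*} [Ring E] {x y : E} (hc : Commute x y) (u : ℕ → E)
    (h0 : u 0 = 2) (h1 : u 1 = x + y)
    (h2 : ∀ k, u (k + 2) = (x + y) * u (k + 1) - (x * y) * u k) :
    ∀ k, x ^ k + y ^ k = u k
  | 0 => by rw [pow_zero, pow_zero, h0, one_add_one_eq_two]
  | 1 => by rw [pow_one, pow_one, h1]
  | (k + 2) => by
      have ih1 := TI_pow_add_pow hc u h0 h1 h2 (k + 1)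
      have ih0 := TI_pow_add_pow hc u h0 h1 h2 k
      have hyx : y * x = x * y := hc.eq.symm
      have key : x ^ (k + 2) + y ^ (k + 2) =
          (x + y) * (x ^ (k + 1) + y ^ (k + 1)) - (x * y) * (x ^ k + y ^ k) := by
        have e1 : x * y ^ (k + 1) = (x * y) * y ^ k := by rw [pow_succ', ← mul_assoc]
        have e2 : y * x ^ (k + 1) = (x * y) * x ^ k := by
          rw [pow_succ', ← mul_assoc, hyx]
        have e3 : x * x ^ (k + 1) = x ^ (k + 2) := (pow_succ' x (k + 1)).symm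
        have e4 : y * y ^ (k + 1) = y ^ (k + 2) := (pow_succ' y (k + 1)).symm
        rw [add_mul, mul_add, mul_add, e1, e2, e3, e4, mul_add]
        abel
      rw [key, ih1, ih0, h2]

/-- Ring homomorphisms commute with the trace recursion. -/
theorem TI_map_acTrace {R R' : Type*} [CommRing R] [CommRing R'] (φ : R →+* R') (b d : R) :
    ∀ k : ℕ, φ (acTrace b d k) = acTrace (φ b) (φ d) k
  | 0 => by rw [Fermat.Agent.S30.acTrace_zero, Fermat.Agent.S30.acTrace_zero, map_ofNat]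
  | 1 => by rw [Fermat.Agent.S30.acTrace_one, Fermat.Agent.S30.acTrace_one]
  | (k + 2) => by
      rw [Fermat.Agent.S30.acTrace_add_two, Fermat.Agent.S30.acTrace_add_two, map_sub, map_mul,
        map_mul, TI_map_acTrace φ b d (k + 1), TI_map_acTrace φ b d k]

/-- The trace recursion stays inside a subalgebra containing its parameters. -/
theorem TI_acTrace_mem {R A : Type*} [CommRing R] [CommRing A] [Algebra R A]
    (B : Subalgebra R A) {b d : A} (hb : b ∈ B) (hd : d ∈ B) :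
    ∀ k : ℕ, acTrace b d k ∈ B
  | 0 => by
      rw [Fermat.Agent.S30.acTrace_zero]
      exact ofNat_mem B 2
  | 1 => by rw [Fermat.Agent.S30.acTrace_one]; exact hb
  | (k + 2) => by
      rw [Fermat.Agent.S30.acTrace_add_two]
      exact B.sub_mem (B.mul_mem hb (TI_acTrace_mem B hb hd (k + 1)))
        (B.mul_mem hd (TI_acTrace_mem B hb hd k))

end PowerSums

/-! ## Traces of powers in rank two -/

section TracePow

variable {T : Type*} [CommRing T] [Nontrivial T] {V : Type*} [AddCommGroup V] [Module T V]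
  [Module.Free T V] [Module.Finite T V]

/-- The trace of an endomorphism of a free module of rank two, read off from the
characteristic polynomial. -/
theorem TI_trace_of_charpoly (hV : Module.finrank T V = 2) (A : Module.End T V) (b d : T)
    (hcp : LinearMap.charpoly A = X ^ 2 - C b * X + C d) :
    LinearMap.trace T V A = b := by
  classical
  let B := Module.Free.chooseBasis T V
  have hcard : Fintype.card (Module.Free.ChooseBasisIndex T V) = 2 := by
    rw [← Module.finrank_eq_card_chooseBasisIndex, hV]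
  have hne : Nonempty (Module.Free.ChooseBasisIndex T V) := by
    rw [← Fintype.card_pos_iff, hcard]; norm_num
  rw [LinearMap.trace_eq_matrix_trace T B A, Matrix.trace_eq_neg_charpoly_coeff,
    LinearMap.charpoly_toMatrix, hcp, hcard]
  simp [Polynomial.coeff_X_pow]

omit [Nontrivial T] in
/-- Cayley–Hamilton in rank two. -/
theorem TI_cayley (A : Module.End T V) (b d : T)
    (hcp : LinearMap.charpoly A = X ^ 2 - C b * X + C d) :
    A * A - b • A + d • (1 : Module.End T V) = 0 := by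
  have h := LinearMap.aeval_self_charpoly A
  rw [hcp] at h
  simpa [pow_two, Algebra.smul_def] using h

/-- The traces of the powers of an endomorphism of a free module of rank two. -/
theorem TI_trace_pow (hV : Module.finrank T V = 2) (A : Module.End T V) (b d : T)
    (hcp : LinearMap.charpoly A = X ^ 2 - C b * X + C d) :
    ∀ k : ℕ, LinearMap.trace T V (A ^ k) = acTrace b d k
  | 0 => by
      rw [pow_zero, LinearMap.trace_one, hV, Fermat.Agent.S30.acTrace_zero]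
      norm_num
  | 1 => by
      rw [pow_one, Fermat.Agent.S30.acTrace_one]
      exact TI_trace_of_charpoly hV A b d hcp
  | (k + 2) => by
      have hCH := TI_cayley A b d hcp
      have hA2 : A * A = b • A - d • (1 : Module.End T V) := by
        have := eq_neg_of_add_eq_zero_left hCH
        rw [sub_eq_iff_eq_add] at this
        rw [this]; abel
      have e : A ^ (k + 2) = b • A ^ (k + 1) - d • A ^ k := by
        rw [pow_add, pow_two, hA2, mul_sub, mul_smul_comm, mul_smul_comm, mul_one, ← pow_succ]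
      rw [e, map_sub, map_smul, map_smul, TI_trace_pow hV A b d hcp (k + 1),
        TI_trace_pow hV A b d hcp k, Fermat.Agent.S30.acTrace_add_two, smul_eq_mul, smul_eq_mul]

end TracePow

/-! ## The saturation exponent -/

section Saturation

variable {E : Type*} [AddCommGroup E]

/-- A uniform exponent for the saturation of a subgroup `𝕋` inside a finitely generated
`ℤ`-submodule `L`. -/
theorem TI_exists_exponent (L 𝕋 : Submodule ℤ E) (hL : L.FG) :
    ∃ e : ℕ, e ≠ 0 ∧ ∀ B ∈ L, ∀ j : ℕ, j ≠ 0 → j • B ∈ 𝕋 → e • B ∈ 𝕋 := by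
  classical
  -- the saturation
  let Sat : Submodule ℤ E :=
    { carrier := {B | B ∈ L ∧ ∃ j : ℕ, j ≠ 0 ∧ j • B ∈ 𝕋}
      zero_mem' := ⟨L.zero_mem, 1, one_ne_zero, by simp⟩
      add_mem' := by
        rintro a b ⟨ha, j, hj, hja⟩ ⟨hb, k, hk, hkb⟩
        refine ⟨L.add_mem ha hb, j * k, mul_ne_zero hj hk, ?_⟩
        rw [smul_add]
        refine 𝕋.add_mem ?_ ?_
        · rw [mul_comm, mul_smul]
          exact 𝕋.smul_of_tower_mem k hja
        · rw [mul_smul]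
          exact 𝕋.smul_of_tower_mem j hkb
      smul_mem' := by
        rintro c a ⟨ha, j, hj, hja⟩
        refine ⟨L.smul_mem c ha, j, hj, ?_⟩
        rw [smul_comm]
        exact 𝕋.smul_mem c hja }
  have hle : Sat ≤ L := fun B hB => hB.1
  have hN : IsNoetherian ℤ L := isNoetherian_of_fg_of_noetherian L hL
  have hfg : Sat.FG := by
    have h1 : (Sat.comap L.subtype).FG := IsNoetherian.noetherian _
    have h2 := h1.map L.subtype
    rwa [Submodule.map_comap_subtype, inf_eq_right.mpr hle] at h2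
  obtain ⟨s, hs⟩ := hfg
  have hsSat : ∀ B ∈ s, B ∈ Sat := fun B hB => hs ▸ Submodule.subset_span hB
  choose! j hj0 hj using fun B (hB : B ∈ s) => (hsSat B hB).2
  refine ⟨∏ B ∈ s, j B, Finset.prod_ne_zero_iff.mpr hj0, ?_⟩
  intro B hBL k hk hkB
  have hBSat : B ∈ Sat := ⟨hBL, k, hk, hkB⟩
  rw [← hs] at hBSat
  refine Submodule.span_induction (p := fun B _ => (∏ B ∈ s, j B) • B ∈ 𝕋) ?_ ?_ ?_ ?_ hBSat
  · intro x hx
    have hx' : x ∈ s := hx
    rw [← Finset.mul_prod_erase s j hx', mul_comm, mul_smul]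
    exact 𝕋.smul_of_tower_mem _ (hj x hx')
  · simp
  · intro x y _ _ hx hy
    rw [smul_add]
    exact 𝕋.add_mem hx hy
  · intro c x _ hx
    rw [smul_comm]
    exact 𝕋.smul_mem c hx

end Saturation

/-! ## Evaluation at the Hecke operators and the key divisibility -/

section Eval

variable (N : ℕ) [NeZero N] (S : Finset ℕ)

/-- The primes outside `S`. -/
def TI_Sc : Set Nat.Primes := {ℓ | (ℓ : ℕ) ∉ S}

/-- The Hecke operators `T_ℓ`, `ℓ ∉ S`, `ℓ ∤ N`, in the Hecke algebra away from `S`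
(zero for the other primes). -/
noncomputable def TI_tS (ℓ : Nat.Primes) : CuspForm.heckeAlgebra N 2 (↑S : Set ℕ) :=
  if h : (ℓ : ℕ) ∣ N ∨ (ℓ : ℕ) ∈ (↑S : Set ℕ) then 0
  else CuspForm.heckeAlgebra.T ℓ.2 (not_or.mp h).1 (not_or.mp h).2

/-- Evaluation of integer polynomials at the Hecke operators away from `S`. -/
noncomputable def TI_evS : MvPolynomial Nat.Primes ℤ →ₐ[ℤ] CuspForm.heckeAlgebra N 2 (↑S : Set ℕ) :=
  MvPolynomial.aeval (TI_tS N S)

theorem TI_evS_X (ℓ : Nat.Primes) (hℓN : ¬ (ℓ : ℕ) ∣ N) (hℓS : (ℓ : ℕ) ∉ (↑S : Set ℕ)) :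
    TI_evS N S (MvPolynomial.X ℓ) = CuspForm.heckeAlgebra.T ℓ.2 hℓN hℓS := by
  rw [TI_evS, MvPolynomial.aeval_X, TI_tS, dif_neg (not_or.mpr ⟨hℓN, hℓS⟩)]

/-- `P` kills the `n`-torsion of `J₀(N)`. -/
def TI_Kills (n : ℕ) (P : MvPolynomial Nat.Primes ℤ) : Prop :=
  letI := ModularCurve.heckeModuleBar N
  ∀ x : ModularCurve.JZero N, n • x = 0 → P • x = 0

variable {N S}

/-- On polynomials in the variables outside `S` the two evaluations agree as operators. -/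
theorem TI_coe_evS (hS : ∀ q : ℕ, q.Prime → q ∣ N → q ∈ S)
    {Q : MvPolynomial Nat.Primes ℤ} (hQ : Q ∈ MvPolynomial.supported ℤ (TI_Sc S)) :
    ((TI_evS N S Q : CuspForm.heckeAlgebra N 2 (↑S : Set ℕ)) :
        Module.End ℂ (CuspForm (CongruenceSubgroup.Gamma0 N) 2)) =
      ((MvPolynomial.aeval (R := ℤ) (heckeTAll N) Q : CuspForm.heckeAlgebra N 2 (∅ : Set ℕ)) :
        Module.End ℂ (CuspForm (CongruenceSubgroup.Gamma0 N) 2)) := by
  rw [MvPolynomial.supported_eq_adjoin_X] at hQ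
  refine Algebra.adjoin_induction (p := fun Q _ =>
    ((TI_evS N S Q : CuspForm.heckeAlgebra N 2 (↑S : Set ℕ)) :
        Module.End ℂ (CuspForm (CongruenceSubgroup.Gamma0 N) 2)) =
      ((MvPolynomial.aeval (R := ℤ) (heckeTAll N) Q : CuspForm.heckeAlgebra N 2 (∅ : Set ℕ)) :
        Module.End ℂ (CuspForm (CongruenceSubgroup.Gamma0 N) 2))) ?_ ?_ ?_ ?_ hQ
  · rintro _ ⟨ℓ, hℓ, rfl⟩
    have hℓS : (ℓ : ℕ) ∉ (↑S : Set ℕ) := fun h => hℓ (Finset.mem_coe.mp h)
    have hℓN : ¬ (ℓ : ℕ) ∣ N := fun h => hℓ (hS ℓ ℓ.2 h)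
    have e1 : TI_evS N S (MvPolynomial.X ℓ) = CuspForm.heckeAlgebra.T ℓ.2 hℓN hℓS :=
      TI_evS_X N S ℓ hℓN hℓS
    rw [e1, MvPolynomial.aeval_X, heckeTAll, dif_neg hℓN]
    rfl
  · intro r
    rw [AlgHom.commutes, AlgHom.commutes]
    rfl
  · intro x y _ _ hx hy
    rw [map_add, map_add, Subalgebra.coe_add, Subalgebra.coe_add, hx, hy]
  · intro x y _ _ hx hy
    rw [map_mul, map_mul, Subalgebra.coe_mul, Subalgebra.coe_mul, hx, hy]

/-- The lattice step: a polynomial in the Hecke operators outside `S` which, up to a power of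
`p`, kills enough `p`-power torsion is `p ^ k` times an element of the lattice `L`. -/
theorem TI_exists_lattice {p : ℕ} (hp : p.Prime) (hpS : p ∈ S)
    (hS : ∀ q : ℕ, q.Prime → q ∣ N → q ∈ S)
    (L : Subalgebra ℤ (Module.End ℂ (CuspForm (CongruenceSubgroup.Gamma0 N) 2)))
    (hL : ∀ (n : ℕ) (P : MvPolynomial Nat.Primes ℤ),
      (∀ ℓ ∈ P.vars, ¬ (ℓ : ℕ) ∣ N * n) → TI_Kills N n P →
      ∃ B ∈ L,
        ((MvPolynomial.aeval (R := ℤ) (heckeTAll N) P : CuspForm.heckeAlgebra N 2 (∅ : Set ℕ)) :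
          Module.End ℂ (CuspForm (CongruenceSubgroup.Gamma0 N) 2)) = (n : ℂ) • B)
    {Q : MvPolynomial Nat.Primes ℤ} (hQ : Q ∈ MvPolynomial.supported ℤ (TI_Sc S)) (k : ℕ)
    (hkill : ∃ m : ℕ, TI_Kills N (p ^ (k + m)) (MvPolynomial.C ((p : ℤ) ^ m) * Q)) :
    ∃ B ∈ L, ((TI_evS N S Q : CuspForm.heckeAlgebra N 2 (↑S : Set ℕ)) :
        Module.End ℂ (CuspForm (CongruenceSubgroup.Gamma0 N) 2)) = ((p ^ k : ℕ) : ℂ) • B := by
  classical
  obtain ⟨m, hm⟩ := hkill
  have hvars : ∀ ℓ : Nat.Primes, ℓ ∈ (MvPolynomial.C ((p : ℤ) ^ m) * Q).vars →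
      ¬ (ℓ : ℕ) ∣ N * p ^ (k + m) := by
    intro ℓ hℓ
    have h1 : ℓ ∈ Q.vars := by
      have := MvPolynomial.vars_mul _ _ hℓ
      rw [MvPolynomial.vars_C, Finset.empty_union] at this
      exact this
    have h2 : ℓ ∈ TI_Sc S := (MvPolynomial.mem_supported.mp hQ) (Finset.mem_coe.mpr h1)
    have hℓS : (ℓ : ℕ) ∉ S := h2
    intro hdvd
    rcases (Nat.Prime.dvd_mul ℓ.2).mp hdvd with h | h
    · exact hℓS (hS ℓ ℓ.2 h)
    · have h3 := ℓ.2.dvd_of_dvd_pow h
      have h4 : (ℓ : ℕ) = p := (Nat.prime_dvd_prime_iff_eq ℓ.2 hp).mp h3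
      exact hℓS (h4 ▸ hpS)
  obtain ⟨B, hB, hBeq⟩ := hL (p ^ (k + m)) _ hvars hm
  refine ⟨B, hB, ?_⟩
  rw [TI_coe_evS hS hQ]
  rw [map_mul, MvPolynomial.aeval_C, Subalgebra.coe_mul] at hBeq
  have hpm : ((p : ℂ) ^ m) ≠ 0 := pow_ne_zero _ (Nat.cast_ne_zero.mpr hp.ne_zero)
  have e1 : ((algebraMap ℤ (CuspForm.heckeAlgebra N 2 (∅ : Set ℕ)) ((p : ℤ) ^ m) :
      CuspForm.heckeAlgebra N 2 (∅ : Set ℕ)) :
        Module.End ℂ (CuspForm (CongruenceSubgroup.Gamma0 N) 2)) =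
      ((p : ℂ) ^ m) • (1 : Module.End ℂ (CuspForm (CongruenceSubgroup.Gamma0 N) 2)) := by
    rw [Subalgebra.coe_algebraMap, Algebra.algebraMap_eq_smul_one]
    rw [← Int.cast_smul_eq_zsmul ℂ]
    push_cast
    rfl
  rw [e1, smul_mul_assoc, one_mul] at hBeq
  have e2 : (((p ^ (k + m) : ℕ) : ℂ)) = (p : ℂ) ^ m * ((p ^ k : ℕ) : ℂ) := by
    push_cast
    rw [pow_add, mul_comm]
  rw [e2, mul_smul] at hBeq
  exact smul_right_injective _ hpm hBeq

/-- The key divisibility: with a uniform loss `c`, a polynomial in the Hecke operators outside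
`S` which, up to a power of `p`, kills enough `p`-power torsion is divisible by `p ^ (k - c)`
in the Hecke algebra, up to a factor prime to `p`. -/
theorem TI_key {p : ℕ} (hp : p.Prime) (hpS : p ∈ S)
    (hS : ∀ q : ℕ, q.Prime → q ∣ N → q ∈ S)
    (L : Subalgebra ℤ (Module.End ℂ (CuspForm (CongruenceSubgroup.Gamma0 N) 2)))
    (hLfg : (Subalgebra.toSubmodule L).FG)
    (hL : ∀ (n : ℕ) (P : MvPolynomial Nat.Primes ℤ),
      (∀ ℓ ∈ P.vars, ¬ (ℓ : ℕ) ∣ N * n) → TI_Kills N n P →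
      ∃ B ∈ L,
        ((MvPolynomial.aeval (R := ℤ) (heckeTAll N) P : CuspForm.heckeAlgebra N 2 (∅ : Set ℕ)) :
          Module.End ℂ (CuspForm (CongruenceSubgroup.Gamma0 N) 2)) = (n : ℂ) • B) :
    ∃ c e' : ℕ, ¬ p ∣ e' ∧ ∀ k : ℕ, c ≤ k →
      ∀ Q ∈ MvPolynomial.supported ℤ (TI_Sc S),
        (∃ m : ℕ, TI_Kills N (p ^ (k + m)) (MvPolynomial.C ((p : ℤ) ^ m) * Q)) →
        ∃ z : CuspForm.heckeAlgebra N 2 (↑S : Set ℕ), e' • TI_evS N S Q = p ^ (k - c) • z := by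
  obtain ⟨e, he0, he⟩ := TI_exists_exponent (Subalgebra.toSubmodule L)
    (Subalgebra.toSubmodule (CuspForm.heckeAlgebra N 2 (↑S : Set ℕ))) hLfg
  obtain ⟨c, e', he', hee⟩ := Nat.exists_eq_pow_mul_and_not_dvd he0 p hp.ne_one
  refine ⟨c, e', he', fun k hck Q hQ hkill => ?_⟩
  obtain ⟨B, hB, hBeq⟩ := TI_exists_lattice hp hpS hS L hL hQ k hkill
  rw [Nat.cast_smul_eq_nsmul] at hBeq
  have h1 : (p ^ k) • B ∈ Subalgebra.toSubmodule (CuspForm.heckeAlgebra N 2 (↑S : Set ℕ)) := by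
    rw [← hBeq]
    exact (TI_evS N S Q).2
  have h2 := he B hB (p ^ k) (pow_ne_zero _ hp.ne_zero) h1
  refine ⟨⟨e • B, h2⟩, ?_⟩
  have h3 : e • TI_evS N S Q = p ^ k • (⟨e • B, h2⟩ : CuspForm.heckeAlgebra N 2 (↑S : Set ℕ)) := by
    apply Subtype.ext
    rw [AddSubmonoidClass.coe_nsmul, AddSubmonoidClass.coe_nsmul, hBeq, smul_comm]
  have h4 : p ^ c • (e' • TI_evS N S Q) =
      p ^ c • (p ^ (k - c) • (⟨e • B, h2⟩ : CuspForm.heckeAlgebra N 2 (↑S : Set ℕ))) := by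
    rw [← mul_smul, ← mul_smul, ← hee, ← pow_add, Nat.add_sub_cancel' hck]
    exact h3
  exact nsmul_right_injective (pow_ne_zero c hp.ne_zero) h4

end Eval

/-! ## The approximation step -/

section ApproxM

variable {G : Type*} [Group G] {R : Type*} [CommRing R] {M : Type*} [AddCommGroup M]
  [Module R M]

/-- The Tate module side of the approximation step. -/
theorem TI_approx_M (I : Ideal R) (ρ : G →* Module.End R M) (d : G →* Rˣ)
    (Θ : MvPolynomial Nat.Primes ℤ →+* Module.End R M)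
    (ℓ : Nat.Primes) (f σ : G) (k : ℕ)
    (hb : Commute (Θ (MvPolynomial.X ℓ)) (ρ f))
    (hES : ρ f * ρ f - Θ (MvPolynomial.X ℓ) * ρ f
      + (((ℓ : ℕ) : R)) • (1 : Module.End R M) = 0)
    (hdf : ((d f : Rˣ) : R) = ((ℓ : ℕ) : R))
    (hσ : TI_Small I (ρ σ - 1)) (hσ' : TI_Small I (ρ σ⁻¹ - 1))
    (hdσ : ((d σ : Rˣ) : R) - 1 ∈ I) :
    TI_Small I (ρ (f ^ k * σ) + ((d (f ^ k * σ) : Rˣ) : R) • ρ (f ^ k * σ)⁻¹
      - Θ (acTrace (MvPolynomial.X ℓ) (MvPolynomial.C ((ℓ : ℕ) : ℤ)) k)) := by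
  set x : Module.End R M := ρ f with hx
  set b : Module.End R M := Θ (MvPolynomial.X ℓ) with hbdef
  set x' : Module.End R M := ρ f⁻¹ with hx'
  have hx'x : x' * x = 1 := by rw [hx', hx, ← map_mul, inv_mul_cancel, map_one]
  have hxx' : x * x' = 1 := by rw [hx', hx, ← map_mul, mul_inv_cancel, map_one]
  -- `y = b - x` satisfies `x * y = ℓ`
  have hxy : x * (b - x) = (((ℓ : ℕ) : R)) • (1 : Module.End R M) := by
    have h1 : x * (b - x) = -(x * x - b * x) := by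
      rw [mul_sub, ← hb.eq]
      abel
    rw [h1, eq_neg_of_add_eq_zero_left hES, neg_neg]
  have hc : Commute x (b - x) := (hb.symm).sub_right (Commute.refl x)
  have hy : b - x = (((ℓ : ℕ) : R)) • x' := by
    have h1 : x' * (x * (b - x)) = b - x := by rw [← mul_assoc, hx'x, one_mul]
    rw [← h1, hxy, mul_smul_comm, mul_one]
  -- the power sums
  have hΘℓ : Θ (MvPolynomial.C ((ℓ : ℕ) : ℤ)) = (((ℓ : ℕ) : R)) • (1 : Module.End R M) := by
    have h1 : (MvPolynomial.C ((ℓ : ℕ) : ℤ) : MvPolynomial Nat.Primes ℤ) =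
        (((ℓ : ℕ) : ℕ) : MvPolynomial Nat.Primes ℤ) := by
      exact MvPolynomial.C_eq_coe_nat _
    rw [h1, map_natCast, Nat.cast_smul_eq_nsmul, nsmul_eq_mul, mul_one]
  have hpow : x ^ k + (b - x) ^ k =
      Θ (acTrace (MvPolynomial.X ℓ) (MvPolynomial.C ((ℓ : ℕ) : ℤ)) k) := by
    refine TI_pow_add_pow hc
      (fun k => Θ (acTrace (MvPolynomial.X ℓ) (MvPolynomial.C ((ℓ : ℕ) : ℤ)) k)) ?_ ?_ ?_ k
    · rw [Fermat.Agent.S30.acTrace_zero, map_ofNat]
    · rw [Fermat.Agent.S30.acTrace_one]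
      abel
    · intro j
      rw [Fermat.Agent.S30.acTrace_add_two, map_sub, map_mul, map_mul, hΘℓ, hxy]
      congr 2
      abel
  -- the exact formula at `f ^ k`
  have hfk : ρ (f ^ k) + ((d (f ^ k) : Rˣ) : R) • ρ (f ^ k)⁻¹ =
      Θ (acTrace (MvPolynomial.X ℓ) (MvPolynomial.C ((ℓ : ℕ) : ℤ)) k) := by
    rw [← hpow, map_pow, map_pow, Units.val_pow_eq_pow_val, hdf, ← inv_pow, map_pow, hy,
      _root_.smul_pow]
  -- the error terms
  have e : ρ (f ^ k * σ) + ((d (f ^ k * σ) : Rˣ) : R) • ρ (f ^ k * σ)⁻¹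
      - Θ (acTrace (MvPolynomial.X ℓ) (MvPolynomial.C ((ℓ : ℕ) : ℤ)) k) =
      ρ (f ^ k) * (ρ σ - 1) + ((d (f ^ k) : Rˣ) : R) •
        ((((d σ : Rˣ) : R) - 1) • (ρ σ⁻¹ * ρ (f ^ k)⁻¹) + (ρ σ⁻¹ - 1) * ρ (f ^ k)⁻¹) := by
    rw [← hfk, mul_inv_rev, map_mul, map_mul, map_mul, Units.val_mul]
    simp only [mul_sub, sub_mul, mul_one, one_mul, sub_smul, one_smul, smul_add, smul_sub,
      mul_smul]
    abel
  rw [e]
  exact (hσ.mul_left _).add ((((TI_small_smul hdσ _)).add (hσ'.mul_right _)).smul _)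

end ApproxM

section ApproxT

variable {G : Type*} [Group G] {T : Type*} [CommRing T] [Nontrivial T] {V : Type*}
  [AddCommGroup V] [Module T V] [Module.Free T V] [Module.Finite T V]

/-- The Hecke side of the approximation step. -/
theorem TI_approx_T (hV : Module.finrank T V = 2) (I : Ideal T) (ρ : G →* Module.End T V)
    (f σ : G) (k : ℕ) (b dd : T)
    (hcp : LinearMap.charpoly (ρ f) = X ^ 2 - C b * X + C dd)
    (hσ : TI_Small I (ρ σ - 1)) :
    LinearMap.trace T V (ρ (f ^ k * σ)) - acTrace b dd k ∈ I := by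
  have h1 : LinearMap.trace T V (ρ (f ^ k)) = acTrace b dd k := by
    rw [map_pow]
    exact TI_trace_pow hV (ρ f) b dd hcp k
  have h2 : ρ (f ^ k * σ) - ρ (f ^ k) = ρ (f ^ k) * (ρ σ - 1) := by
    rw [map_mul, mul_sub, mul_one]
  rw [← h1, ← map_sub, h2]
  exact TI_trace_mem (hσ.mul_left _)

end ApproxT

/-! ## The main theorem -/

/-- An integer prime to `p` is a unit in a local ring in which `p` is not a unit. -/
theorem TI_isUnit_natCast {T : Type*} [CommRing T] [IsLocalRing T] {p : ℕ} (hp : p.Prime)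
    (hpT : (p : T) ∈ IsLocalRing.maximalIdeal T) {e : ℕ} (he : ¬ p ∣ e) : IsUnit (e : T) := by
  have hcop : Nat.Coprime p e := (Nat.Prime.coprime_iff_not_dvd hp).mpr he
  have hc : IsCoprime (p : ℤ) (e : ℤ) := Nat.isCoprime_iff_coprime.mpr hcop
  obtain ⟨a, b, hab⟩ := hc
  have h1 : (a : T) * (p : T) + (b : T) * (e : T) = 1 := by
    have := congrArg (Int.cast : ℤ → T) hab
    push_cast at this
    exact this
  by_contra hu
  have h2 : (e : T) ∈ IsLocalRing.maximalIdeal T := (IsLocalRing.mem_maximalIdeal _).mpr hu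
  have h3 : (1 : T) ∈ IsLocalRing.maximalIdeal T := by
    rw [← h1]
    exact Ideal.add_mem _ (Ideal.mul_mem_left _ _ hpT) (Ideal.mul_mem_left _ _ h2)
  exact (Ideal.ne_top_iff_one _).mp (IsLocalRing.maximalIdeal.isMaximal T).ne_top h3

/-- **C2 (TraceInvariance).** -/
theorem traceInvariance_of (hT : TateStatement)
    (hTP : ∀ (N p : ℕ) [NeZero N] [Fact p.Prime], TatePackageStatement N p)
    (N p : ℕ) [NeZero N] : TraceInvarianceStatement N p := by
  intro hp hCheb hHGC hES hTFL hKL S hpS hS 𝒪 _ _ _ _ hp𝒪 θ T _ _ _ _ _ _ _ _ H q hq hqS A hA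
    σ₀ hσ₀ g
  have : Fact p.Prime := ⟨hp⟩
  obtain ⟨M, iM1, iM2, iM3, iM4, ρ, Θ, hcomm, hcont, hunr, hESrel, hlink⟩ :=
    hTP N p hT hHGC hES hTFL
  obtain ⟨L, hLfg, hL⟩ := hKL
  -- the `p`-adic cyclotomic character
  have hmaxZ : IsLocalRing.maximalIdeal ℤ_[p] = Ideal.span {(p : ℤ_[p])} :=
    PadicInt.maximalIdeal_eq_span_p
  have hpZ : (p : ℤ_[p]) ∈ IsLocalRing.maximalIdeal ℤ_[p] := by
    rw [hmaxZ]
    exact Ideal.mem_span_singleton_self _
  obtain ⟨d, hdcont, hdin, hdfrob, -⟩ := Fermat.Agent.S30.cycCharAdic p hp ℤ_[p] hpZ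
  -- `p` is not a unit of `T`
  have hpT : (p : T) ∈ IsLocalRing.maximalIdeal T := by
    have h1 : (p : T) = algebraMap 𝒪 T (p : 𝒪) := (map_natCast (algebraMap 𝒪 T) p).symm
    rw [h1, IsLocalRing.mem_maximalIdeal, mem_nonunits_iff]
    intro hu
    exact (IsLocalRing.mem_maximalIdeal _).mp hp𝒪 (isUnit_of_map_unit (algebraMap 𝒪 T) _ hu)
  -- primes outside `S` do not divide `N * p`
  have hNp : ∀ ℓ : ℕ, ℓ.Prime → ℓ ∉ S → ¬ ℓ ∣ N * p := by
    intro ℓ hℓ hℓS hdvd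
    rcases (Nat.Prime.dvd_mul hℓ).mp hdvd with h | h
    · exact hℓS (hS ℓ hℓ h)
    · exact hℓS (((Nat.prime_dvd_prime_iff_eq hℓ hp).mp h) ▸ hpS)
  have hne : ∀ ℓ : ℕ, ℓ.Prime → ℓ ∉ S → ℓ ≠ p := fun ℓ _ hℓS h => hℓS (h ▸ hpS)
  have hnN : ∀ ℓ : ℕ, ℓ.Prime → ℓ ∉ S → ¬ ℓ ∣ N := fun ℓ hℓ hℓS h => hℓS (hS ℓ hℓ h)
  -- the key divisibility
  obtain ⟨c, e', he', hkey⟩ := TI_key hp hpS hS L hLfg hL
  have hu : IsUnit ((e' : ℕ) : T) := TI_isUnit_natCast hp hpT he'
  -- the approximation step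
  have happrox : ∀ (g : GQ) (n : ℕ), ∃ Q ∈ MvPolynomial.supported ℤ (TI_Sc S),
      TI_Small (IsLocalRing.maximalIdeal ℤ_[p] ^ n)
        (ρ g + ((d g : ℤ_[p]ˣ) : ℤ_[p]) • ρ g⁻¹ - Θ Q) ∧
      LinearMap.trace T H.ρ.V (H.ρ.ρ g) - H.π (TI_evS N S Q) ∈
        IsLocalRing.maximalIdeal T ^ n := by
    intro g n
    obtain ⟨L₁, hL₁, h₁⟩ := hcont n
    obtain ⟨L₂, hL₂, h₂⟩ := hdcont n
    obtain ⟨L₃, hL₃, h₃⟩ := H.ρ.isAdicContinuous n
    have hfd12 : FiniteDimensional ℚ ↥(L₁ ⊔ L₂) := IntermediateField.finiteDimensional_sup L₁ L₂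
    have hfd : FiniteDimensional ℚ ↥(L₁ ⊔ L₂ ⊔ L₃) :=
      IntermediateField.finiteDimensional_sup (L₁ ⊔ L₂) L₃
    obtain ⟨ℓ, hℓ, hℓS, A', hA', f, hf, k, hk⟩ := hCheb (L₁ ⊔ L₂ ⊔ L₃) hfd g S
    -- `σ = (f ^ k)⁻¹ * g` fixes the compositum
    have hσ : ∀ x ∈ L₁ ⊔ L₂ ⊔ L₃, ((f ^ k)⁻¹ * g) x = x := fun x hx => by
      rw [AlgEquiv.mul_apply, hk x hx]
      exact (f ^ k).symm_apply_apply x
    have hσi : ∀ x ∈ L₁ ⊔ L₂ ⊔ L₃, ((f ^ k)⁻¹ * g)⁻¹ x = x := fun x hx => by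
      have h := hσ x hx
      have h2 : ((f ^ k)⁻¹ * g)⁻¹ (((f ^ k)⁻¹ * g) x) = x :=
        ((f ^ k)⁻¹ * g).symm_apply_apply x
      rw [h] at h2
      exact h2
    have hg : g = f ^ k * ((f ^ k)⁻¹ * g) := by rw [mul_inv_cancel_left]
    have hle₁ : L₁ ≤ L₁ ⊔ L₂ ⊔ L₃ := le_sup_left.trans le_sup_left
    have hle₂ : L₂ ≤ L₁ ⊔ L₂ ⊔ L₃ := le_sup_right.trans le_sup_left
    have hle₃ : L₃ ≤ L₁ ⊔ L₂ ⊔ L₃ := le_sup_right
    have hs₁ : TI_Small (IsLocalRing.maximalIdeal ℤ_[p] ^ n) (ρ ((f ^ k)⁻¹ * g) - 1) :=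
      fun v => by
        rw [LinearMap.sub_apply, Module.End.one_apply]
        exact h₁ _ (fun x hx => hσ x (hle₁ hx)) v
    have hs₁' : TI_Small (IsLocalRing.maximalIdeal ℤ_[p] ^ n) (ρ ((f ^ k)⁻¹ * g)⁻¹ - 1) :=
      fun v => by
        rw [LinearMap.sub_apply, Module.End.one_apply]
        exact h₁ _ (fun x hx => hσi x (hle₁ hx)) v
    have hs₂ := h₂ ((f ^ k)⁻¹ * g) fun x hx => hσ x (hle₂ hx)
    have hs₃ : TI_Small (IsLocalRing.maximalIdeal T ^ n) (H.ρ.ρ ((f ^ k)⁻¹ * g) - 1) :=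
      fun v => by
        rw [LinearMap.sub_apply, Module.End.one_apply]
        exact h₃ _ (fun x hx => hσ x (hle₃ hx)) v
    have hℓN : ¬ ℓ ∣ N := hnN ℓ hℓ hℓS
    have hℓS' : ℓ ∉ (↑S : Set ℕ) := fun h => hℓS (Finset.mem_coe.mp h)
    refine ⟨acTrace (MvPolynomial.X (⟨ℓ, hℓ⟩ : Nat.Primes)) (MvPolynomial.C ((ℓ : ℕ) : ℤ)) k,
      ?_, ?_, ?_⟩
    · refine TI_acTrace_mem _ ?_ (Subalgebra.algebraMap_mem _ _) k
      exact MvPolynomial.X_mem_supported.mpr hℓS
    · have hrel := hESrel ℓ hℓ (hNp ℓ hℓ hℓS) A' hA' f hf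
      have hdf := hdfrob ℓ hℓ (hne ℓ hℓ hℓS) A' hA' f hf
      have h := TI_approx_M (IsLocalRing.maximalIdeal ℤ_[p] ^ n) ρ d Θ (⟨ℓ, hℓ⟩ : Nat.Primes) f
        ((f ^ k)⁻¹ * g) k (hcomm _ f) hrel hdf hs₁ hs₁' hs₂
      rw [← hg] at h
      exact h
    · have hcp := H.charpoly_frob ℓ hℓ hℓN hℓS' A' hA' f hf
      have h := TI_approx_T H.ρ.finrank_eq (IsLocalRing.maximalIdeal T ^ n) H.ρ.ρ f
        ((f ^ k)⁻¹ * g) k _ _ hcp hs₃
      rw [← hg] at h
      have e1 : H.π (TI_evS N S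
          (acTrace (MvPolynomial.X (⟨ℓ, hℓ⟩ : Nat.Primes)) (MvPolynomial.C ((ℓ : ℕ) : ℤ)) k)) =
          acTrace (H.π (CuspForm.heckeAlgebra.T hℓ hℓN hℓS')) ((ℓ : T)) k := by
        have h1 := TI_map_acTrace (H.π.comp (TI_evS N S : MvPolynomial Nat.Primes ℤ →+*
          CuspForm.heckeAlgebra N 2 (↑S : Set ℕ)))
          (MvPolynomial.X (⟨ℓ, hℓ⟩ : Nat.Primes)) (MvPolynomial.C ((ℓ : ℕ) : ℤ)) k
        have h2 : (H.π.comp (TI_evS N S : MvPolynomial Nat.Primes ℤ →+*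
            CuspForm.heckeAlgebra N 2 (↑S : Set ℕ))) (MvPolynomial.X (⟨ℓ, hℓ⟩ : Nat.Primes)) =
            H.π (CuspForm.heckeAlgebra.T hℓ hℓN hℓS') := by
          rw [RingHom.comp_apply]
          congr 1
          exact TI_evS_X N S ⟨ℓ, hℓ⟩ hℓN hℓS'
        have h3 : (H.π.comp (TI_evS N S : MvPolynomial Nat.Primes ℤ →+*
            CuspForm.heckeAlgebra N 2 (↑S : Set ℕ))) (MvPolynomial.C ((ℓ : ℕ) : ℤ)) =
            (ℓ : T) := by
          rw [MvPolynomial.C_eq_coe_nat, map_natCast]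
        rw [h2, h3] at h1
        exact h1
      rw [e1]
      exact h
  -- inertia at `q` does not change `s`
  have hρσ : ρ σ₀ = 1 := hunr q hq (hNp q hq hqS) A hA σ₀ hσ₀
  have hdσ : d σ₀ = 1 := hdin q hq (hne q hq hqS) A hA σ₀ hσ₀
  have hρσi : ρ σ₀⁻¹ = 1 := by
    have h1 : ρ σ₀⁻¹ * ρ σ₀ = 1 := by rw [← map_mul, inv_mul_cancel, map_one]
    rwa [hρσ, mul_one] at h1
  have hs : ρ (σ₀ * g) + ((d (σ₀ * g) : ℤ_[p]ˣ) : ℤ_[p]) • ρ (σ₀ * g)⁻¹ =
      ρ g + ((d g : ℤ_[p]ˣ) : ℤ_[p]) • ρ g⁻¹ := by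
    rw [mul_inv_rev, map_mul, map_mul, map_mul, hρσ, hρσi, hdσ, one_mul, one_mul, mul_one]
  -- the difference of the traces lies in every power of the maximal ideal
  have hmem : ∀ j : ℕ, LinearMap.trace T H.ρ.V (H.ρ.ρ (σ₀ * g)) -
      LinearMap.trace T H.ρ.V (H.ρ.ρ g) ∈ IsLocalRing.maximalIdeal T ^ j := by
    intro j
    obtain ⟨Q₁, hQ₁, hM₁, hT₁⟩ := happrox (σ₀ * g) (j + c)
    obtain ⟨Q₂, hQ₂, hM₂, hT₂⟩ := happrox g (j + c)
    have hQ : Q₁ - Q₂ ∈ MvPolynomial.supported ℤ (TI_Sc S) := Subalgebra.sub_mem _ hQ₁ hQ₂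
    have hsmall : TI_Small (IsLocalRing.maximalIdeal ℤ_[p] ^ (j + c)) (Θ (Q₁ - Q₂)) := by
      have e : Θ (Q₁ - Q₂) = (ρ g + ((d g : ℤ_[p]ˣ) : ℤ_[p]) • ρ g⁻¹ - Θ Q₂) -
          (ρ (σ₀ * g) + ((d (σ₀ * g) : ℤ_[p]ˣ) : ℤ_[p]) • ρ (σ₀ * g)⁻¹ - Θ Q₁) := by
        rw [hs, map_sub]
        abel
      rw [e]
      exact hM₂.sub hM₁
    have hdiv : ∀ v : M, ∃ w : M, Θ (Q₁ - Q₂) v = ((p : ℤ_[p]) ^ (j + c)) • w := by
      intro v
      have h := hsmall v
      rw [hmaxZ, Ideal.span_singleton_pow] at h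
      exact (TI_mem_span_smul_iff _ _).mp h
    obtain ⟨z, hz⟩ := hkey (j + c) (Nat.le_add_left c j) (Q₁ - Q₂) hQ (hlink (Q₁ - Q₂) (j + c) hdiv)
    rw [Nat.add_sub_cancel] at hz
    have hπ : ((e' : ℕ) : T) * H.π (TI_evS N S (Q₁ - Q₂)) = (p : T) ^ j * H.π z := by
      have := congrArg H.π hz
      rw [map_nsmul, map_nsmul, nsmul_eq_mul, nsmul_eq_mul] at this
      push_cast at this
      exact this
    have hπmem : H.π (TI_evS N S (Q₁ - Q₂)) ∈ IsLocalRing.maximalIdeal T ^ j := by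
      obtain ⟨u, hu'⟩ := hu
      have e : H.π (TI_evS N S (Q₁ - Q₂)) = (p : T) ^ j * (↑u⁻¹ * H.π z) := by
        rw [← mul_assoc, mul_comm ((p : T) ^ j), mul_assoc, ← hπ, ← hu', ← mul_assoc,
          Units.inv_mul, one_mul]
      rw [e]
      exact Ideal.mul_mem_right _ _ (Ideal.pow_mem_pow hpT j)
    have hle : IsLocalRing.maximalIdeal T ^ (j + c) ≤ IsLocalRing.maximalIdeal T ^ j :=
      Ideal.pow_le_pow_right (Nat.le_add_right j c)
    have e : LinearMap.trace T H.ρ.V (H.ρ.ρ (σ₀ * g)) - LinearMap.trace T H.ρ.V (H.ρ.ρ g) =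
        (LinearMap.trace T H.ρ.V (H.ρ.ρ (σ₀ * g)) - H.π (TI_evS N S Q₁))
          - (LinearMap.trace T H.ρ.V (H.ρ.ρ g) - H.π (TI_evS N S Q₂))
          + H.π (TI_evS N S (Q₁ - Q₂)) := by
      rw [map_sub, map_sub]
      ring
    rw [e]
    exact Ideal.add_mem _ (Ideal.sub_mem _ (hle hT₁) (hle hT₂)) hπmem
  have hbot : (⨅ i : ℕ, IsLocalRing.maximalIdeal T ^ i) = ⊥ :=
    Ideal.iInf_pow_eq_bot_of_isLocalRing _ (IsLocalRing.maximalIdeal.isMaximal T).ne_top
  have h0 : LinearMap.trace T H.ρ.V (H.ρ.ρ (σ₀ * g)) - LinearMap.trace T H.ρ.V (H.ρ.ρ g) ∈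
      (⨅ i : ℕ, IsLocalRing.maximalIdeal T ^ i) := by
    rw [Ideal.mem_iInf]
    exact hmem
  rw [hbot, Ideal.mem_bot] at h0
  exact sub_eq_zero.mp h0

end Fermat.Agent.S31
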