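import Fermat.Agent.S31.Skeleton

set_option autoImplicit false
set_option linter.unusedSectionVars false
set_option linter.style.haveILetI false

namespace Fermat.Agent.S31

open Fermat.Agent.S29 (GQ HeckeGaloisCommute EichlerShimuraTorsion TorsionFiniteLevel)
open Fermat.Agent.S30 (TateStatement)

section Generic

variable (p : ℕ) (J : Type*) [AddCommGroup J]

/-- The `p`-power torsion subgroup of an abelian group. -/
def tpjPrim : AddSubgroup J where
  carrier := {x | ∃ n : ℕ, p ^ n • x = 0}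
  zero_mem' := ⟨0, smul_zero _⟩
  add_mem' := by
    rintro a b ⟨m, hm⟩ ⟨n, hn⟩
    refine ⟨m + n, ?_⟩
    rw [smul_add, pow_add, mul_smul, mul_smul, hn, smul_zero, add_zero, smul_comm, hm, smul_zero]
  neg_mem' := by
    rintro a ⟨m, hm⟩
    exact ⟨m, by rw [smul_neg, hm, neg_zero]⟩

variable {p J}

theorem tpj_mem_prim {x : J} : x ∈ tpjPrim p J ↔ ∃ n : ℕ, p ^ n • x = 0 := Iff.rfl

theorem tpj_map_mem (f : AddMonoid.End J) (x : tpjPrim p J) : f (x : J) ∈ tpjPrim p J := by
  obtain ⟨n, hn⟩ := x.2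
  exact ⟨n, by rw [← map_nsmul, hn, map_zero]⟩

variable (p J) in
/-- Restriction of endomorphisms to the `p`-power torsion subgroup, as a ring homomorphism. -/
def tpjRes : AddMonoid.End J →+* AddMonoid.End (tpjPrim p J) where
  toFun f := AddMonoidHom.codRestrict (AddMonoidHom.comp f (tpjPrim p J).subtype) (tpjPrim p J)
    (fun x => tpj_map_mem f x)
  map_one' := by ext x; rfl
  map_mul' f g := by ext x; rfl
  map_zero' := by ext x; rfl
  map_add' f g := by ext x; rfl

theorem tpjRes_apply (f : AddMonoid.End J) (x : tpjPrim p J) :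
    ((tpjRes p J f x : tpjPrim p J) : J) = f (x : J) := rfl

theorem tpj_finite (k : ℕ) (h : Set.Finite {x : J | p ^ k • x = 0}) :
    Set.Finite {x : tpjPrim p J | p ^ k • x = 0} := by
  refine Set.Finite.of_finite_image (f := fun x : tpjPrim p J => (x : J)) (h.subset ?_)
    (Subtype.val_injective.injOn)
  rintro _ ⟨x, hx, rfl⟩
  have : ((p ^ k • x : tpjPrim p J) : J) = 0 := by rw [hx]; rfl
  simpa using this

end Generic


section Main

open ModularCurve

variable (N : ℕ) [NeZero N]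

/-- The Galois action on `J₀(N)`, as a monoid homomorphism to additive endomorphisms. -/
noncomputable def tpjGal : GQ →* AddMonoid.End (JZero N) := DistribMulAction.toAddMonoidEnd GQ (JZero N)

theorem tpjGal_apply (σ : GQ) (x : JZero N) : tpjGal N σ x = σ • x := rfl

/-- The Hecke action on `J₀(N)`, as a ring homomorphism to additive endomorphisms. -/
noncomputable def tpjHecke (h : HeckeOperatorsCommuteBar N) :
    MvPolynomial Nat.Primes ℤ →+* AddMonoid.End (JZero N) :=
  ((addMonoidEndRingEquivInt (JZero N)).symm :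
    Module.End ℤ (JZero N) →+* AddMonoid.End (JZero N)).comp (heckeEvalBar h)

theorem tpjHecke_apply (h : HeckeOperatorsCommuteBar N) (P : MvPolynomial Nat.Primes ℤ)
    (x : JZero N) : tpjHecke N h P x = heckeEvalBar h P x := rfl

theorem tpjHecke_X (h : HeckeOperatorsCommuteBar N) (ℓ : Nat.Primes) (x : JZero N) :
    tpjHecke N h (MvPolynomial.X ℓ) x = heckeOperatorBar N ℓ x := by
  rw [tpjHecke_apply]
  exact congrArg (fun f : Module.End ℤ (JZero N) => f x) (heckeEvalBar_heckeGen h ℓ)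

theorem tpj_commute (hHG : HeckeGaloisCommute N) (P : MvPolynomial Nat.Primes ℤ) (σ : GQ) :
    Commute (tpjHecke N hHG.1 P) (tpjGal N σ) := by
  induction P using MvPolynomial.induction_on with
  | C a =>
    rw [← MvPolynomial.algebraMap_eq, eq_intCast, map_intCast]
    exact Int.cast_commute a _
  | add P Q hP hQ => rw [map_add]; exact hP.add_left hQ
  | mul_X P ℓ hP =>
    rw [map_mul]
    refine hP.mul_left ?_
    show tpjHecke N hHG.1 (MvPolynomial.X ℓ) * tpjGal N σ =
      tpjGal N σ * tpjHecke N hHG.1 (MvPolynomial.X ℓ)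
    ext x
    show tpjHecke N hHG.1 (MvPolynomial.X ℓ) (σ • x) =
      σ • tpjHecke N hHG.1 (MvPolynomial.X ℓ) x
    rw [tpjHecke_X, tpjHecke_X]
    exact hHG.2 ℓ σ x


/-- **A3b (TatePackage).** -/
theorem tatePackage (N p : ℕ) [NeZero N] [Fact p.Prime] : TatePackageStatement N p := by
  intro hT hHG hES hTF
  obtain ⟨M, iM1, iM2, iM3, iM4, π, Φ, h1, h2, h3, h4, h5⟩ :=
    hT p (tpjPrim p (JZero N)) (fun k => tpj_finite k (hTF k).1)
  let R : AddMonoid.End (JZero N) →+* AddMonoid.End (tpjPrim p (JZero N)) := tpjRes p (JZero N)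
  let ρ : GQ →* Module.End ℤ_[p] M :=
    (Φ : AddMonoid.End (tpjPrim p (JZero N)) →* Module.End ℤ_[p] M).comp
      ((R : AddMonoid.End (JZero N) →* AddMonoid.End (tpjPrim p (JZero N))).comp (tpjGal N))
  let Θ : MvPolynomial Nat.Primes ℤ →+* Module.End ℤ_[p] M :=
    Φ.comp (R.comp (tpjHecke N hHG.1))
  have hρ : ∀ g : GQ, ρ g = Φ (R (tpjGal N g)) := fun g => rfl
  have hΘ : ∀ P : MvPolynomial Nat.Primes ℤ, Θ P = Φ (R (tpjHecke N hHG.1 P)) := fun P => rfl
  have hpmem : (p : ℤ_[p]) ∈ IsLocalRing.maximalIdeal ℤ_[p] := by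
    rw [PadicInt.maximalIdeal_eq_span_p]; exact Ideal.mem_span_singleton_self _
  have hπpow : ∀ (k : ℕ) (w : M), π k (((p : ℤ_[p]) ^ k) • w) = 0 := by
    intro k w
    rw [← Nat.cast_pow, Nat.cast_smul_eq_nsmul, map_nsmul, h1]
  refine ⟨M, iM1, iM2, iM3, iM4, ρ, Θ, ?_, ?_, ?_, ?_, ?_⟩
  · -- commutation
    intro P g
    rw [hρ, hΘ]
    exact ((tpj_commute N hHG P g).map R).map Φ
  · -- continuity
    intro n
    obtain ⟨L, hL, hfix⟩ := (hTF n).2
    refine ⟨L, hL, fun σ hσ v => ?_⟩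
    have hker : π n (ρ σ v - v) = 0 := by
      rw [map_sub, hρ, h5, sub_eq_zero]
      apply Subtype.ext
      show σ • ((π n v : tpjPrim p (JZero N)) : JZero N) = ((π n v : tpjPrim p (JZero N)) : JZero N)
      apply hfix σ hσ
      have := congrArg (fun y : tpjPrim p (JZero N) => (y : JZero N)) (h1 n v)
      simpa using this
    obtain ⟨s, hs⟩ := h3 n _ hker
    rw [hs]
    exact Submodule.smul_mem_smul (Ideal.pow_mem_pow hpmem n) Submodule.mem_top
  · -- unramified
    intro q hq hqN A hA σ hσ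
    rw [hρ]
    have : R (tpjGal N σ) = 1 := by
      ext x
      show σ • (x : JZero N) = (x : JZero N)
      exact hES.1 q hq hqN A hA σ hσ x.1 x.2
    rw [this, map_one]
  · -- Eichler-Shimura relation
    intro ℓ hℓ hℓN A hA σ hσ
    have hrel : R (tpjGal N σ) * R (tpjGal N σ)
        - R (tpjHecke N hHG.1 (MvPolynomial.X ⟨ℓ, hℓ⟩)) * R (tpjGal N σ)
        + ((ℓ : ℕ) : AddMonoid.End (tpjPrim p (JZero N))) = 0 := by
      ext x
      show σ • σ • (x : JZero N) - tpjHecke N hHG.1 (MvPolynomial.X ⟨ℓ, hℓ⟩) (σ • (x : JZero N))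
        + (((ℓ : ℕ) : AddMonoid.End (tpjPrim p (JZero N))) x : tpjPrim p (JZero N)) = 0
      rw [tpjHecke_X]
      have h := hES.2 ℓ hℓ hℓN A hA σ hσ x.1 x.2
      have hc : ((((ℓ : ℕ) : AddMonoid.End (tpjPrim p (JZero N))) x : tpjPrim p (JZero N)) :
          JZero N) = ℓ • (x : JZero N) := by
        simp
      rw [hc]
      exact h
    have := congrArg Φ hrel
    rw [map_add, map_sub, map_mul, map_mul, map_natCast, map_zero] at this
    rw [hρ, hΘ, ← Algebra.algebraMap_eq_smul_one, map_natCast]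
    exact this
  · -- key link
    intro P k hPk
    obtain ⟨m, hm⟩ := h4 k
    refine ⟨m, ?_⟩
    intro x hx
    rw [heckeModuleBar_smul_def hHG.1, map_mul, heckeEvalBar_C]
    show ((((p : ℤ) ^ m : ℤ) : Module.End ℤ (JZero N))) (heckeEvalBar hHG.1 P x) = 0
    rw [Module.End.intCast_apply, ← Nat.cast_pow, natCast_zsmul]
    let x' : tpjPrim p (JZero N) := ⟨x, k + m, hx⟩
    have hx' : p ^ (k + m) • x' = 0 := Subtype.ext hx
    obtain ⟨t, ht⟩ := hm x' hx'
    obtain ⟨w, hw⟩ := hPk t
    have e1 : π k (Θ P t) = 0 := by rw [hw, hπpow]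
    rw [hΘ, h5, ht] at e1
    have e2 := congrArg (fun y : tpjPrim p (JZero N) => (y : JZero N)) e1
    simp only [tpjRes_apply, tpjHecke_apply, R] at e2
    rw [← map_nsmul]
    simpa using e2

end Main


end Fermat.Agent.S31
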