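import Fermat.Agent.S31.Defs
import Fermat.Agent.S53.Burnside

/-!
# S31, task C1 (RIGID): trace rigidity

`traceRigid : TraceRigidStatement`.  For a representation `ρ` on a free module of finite rank over
a local ring `T` whose residual representation is absolutely irreducible, an element `τ` with
`tr ρ(τ g) = tr ρ(g)` for all `g` acts trivially.

Proof.  By Burnside (`Fermat.Agent.S53.residual_span_range_eq_top`) the image of the residual
representation spans the endomorphism algebra of the residual space; by Nakayama the image of
`ρ` spans `End_T V` (`rig_span_range_eq_top`).  Hence `tr ((ρ τ - 1) x) = 0` for all `x`, and the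
trace pairing on a matrix algebra is perfect.
-/

set_option autoImplicit false

open TensorProduct

namespace Fermat.Agent.S31

section Rigid

variable {T : Type} [CommRing T] [IsLocalRing T]

/-- An endomorphism of a finite free module over a local ring whose base change to the residue
field vanishes lies in `𝔪 • ⊤`. -/
theorem rig_mem_smul_top_of_baseChange_eq_zero {V : Type} [AddCommGroup V] [Module T V]
    [Module.Free T V] [Module.Finite T V] (g : Module.End T V)
    (hg : g.baseChange (IsLocalRing.ResidueField T) = 0) :
    g ∈ (IsLocalRing.maximalIdeal T) • (⊤ : Submodule T (Module.End T V)) := by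
  classical
  let b := Module.Free.chooseBasis T V
  have hent : ∀ i j, LinearMap.toMatrix b b g i j ∈ IsLocalRing.maximalIdeal T := by
    intro i j
    have h := LinearMap.toMatrix_baseChange (IsLocalRing.ResidueField T) g b b
    rw [hg, map_zero] at h
    have h2 := congrFun (congrFun h i) j
    simp only [Matrix.map_apply, Matrix.zero_apply] at h2
    rw [IsLocalRing.ResidueField.algebraMap_eq] at h2
    exact (IsLocalRing.residue_eq_zero_iff _).mp h2.symm
  have hsum : g = ∑ i, ∑ j, (LinearMap.toMatrix b b g i j) •
      (LinearMap.toMatrix b b).symm (Matrix.single i j (1 : T)) := by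
    apply (LinearMap.toMatrix b b).injective
    rw [map_sum]
    simp_rw [map_sum, map_smul, LinearEquiv.apply_symm_apply]
    refine (Matrix.matrix_eq_sum_single _).trans ?_
    refine Finset.sum_congr rfl fun i _ => Finset.sum_congr rfl fun j _ => ?_
    rw [Matrix.smul_single, smul_eq_mul, mul_one]
  rw [hsum]
  exact Submodule.sum_mem _ fun i _ => Submodule.sum_mem _ fun j _ =>
    Submodule.smul_mem_smul (hent i j) Submodule.mem_top

/-- Lifting from the span of the base-changed family to the span of the family. -/
theorem rig_exists_lift_of_mem_span {V : Type} [AddCommGroup V] [Module T V] {ι : Type}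
    (r : ι → Module.End T V)
    (x : IsLocalRing.ResidueField T ⊗[T] V →ₗ[IsLocalRing.ResidueField T]
      IsLocalRing.ResidueField T ⊗[T] V)
    (hx : x ∈ Submodule.span (IsLocalRing.ResidueField T)
      (Set.range fun i => (r i).baseChange (IsLocalRing.ResidueField T))) :
    ∃ s ∈ Submodule.span T (Set.range r), s.baseChange (IsLocalRing.ResidueField T) = x := by
  induction hx using Submodule.span_induction with
  | mem x hx =>
    obtain ⟨σ, rfl⟩ := hx
    exact ⟨r σ, Submodule.subset_span ⟨σ, rfl⟩, rfl⟩
  | zero => exact ⟨0, Submodule.zero_mem _, LinearMap.baseChange_zero⟩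
  | add x y _ _ hx hy =>
    obtain ⟨s, hs, rfl⟩ := hx
    obtain ⟨t, ht, rfl⟩ := hy
    exact ⟨s + t, Submodule.add_mem _ hs ht, LinearMap.baseChange_add _ _⟩
  | smul c x _ hx =>
    obtain ⟨s, hs, rfl⟩ := hx
    obtain ⟨t, rfl⟩ := IsLocalRing.residue_surjective c
    refine ⟨t • s, Submodule.smul_mem _ _ hs, ?_⟩
    rw [LinearMap.baseChange_smul]
    refine LinearMap.ext fun w => ?_
    rw [LinearMap.smul_apply, LinearMap.smul_apply, ← IsLocalRing.ResidueField.algebraMap_eq,
      algebraMap_smul]

/-- **Nakayama.**  If the base changes of a family of endomorphisms of a finite free module over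
a local ring span the endomorphisms of the residual space, the family spans. -/
theorem rig_span_eq_top_of_baseChange {V : Type} [AddCommGroup V] [Module T V]
    [Module.Free T V] [Module.Finite T V] {ι : Type} (r : ι → Module.End T V)
    (hres : Submodule.span (IsLocalRing.ResidueField T)
      (Set.range fun i => (r i).baseChange (IsLocalRing.ResidueField T)) = ⊤) :
    Submodule.span T (Set.range r) = ⊤ := by
  refine top_unique ?_
  refine Submodule.le_of_le_smul_of_le_jacobson_bot (I := IsLocalRing.maximalIdeal T)
    Module.Finite.fg_top (IsLocalRing.maximalIdeal_le_jacobson ⊥) ?_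
  intro f _
  obtain ⟨s, hs, hsf⟩ := rig_exists_lift_of_mem_span r
    (f.baseChange (IsLocalRing.ResidueField T)) (by rw [hres]; trivial)
  have h1 : f - s ∈ (IsLocalRing.maximalIdeal T) • (⊤ : Submodule T (Module.End T V)) :=
    rig_mem_smul_top_of_baseChange_eq_zero (f - s)
      (by rw [LinearMap.baseChange_sub, hsf]; exact sub_self (f.baseChange (IsLocalRing.ResidueField T)))
  have h2 : f = s + (f - s) := by abel
  rw [h2]
  exact Submodule.add_mem_sup hs h1

/-- **Nakayama + Burnside.**  If the residual representation is absolutely irreducible, the image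
of `ρ` spans the endomorphism algebra. -/
theorem rig_span_range_eq_top (ρ : GaloisRepAdic T)
    (habs : ρ.residual.IsAbsolutelyIrreducible) :
    Submodule.span T (Set.range ρ.ρ) = ⊤ :=
  rig_span_eq_top_of_baseChange (fun σ => ρ.ρ σ)
    (Fermat.Agent.S53.residual_span_range_eq_top ρ.residual habs)

omit [IsLocalRing T] in
/-- The trace pairing on the endomorphisms of a finite free module is nondegenerate. -/
theorem rig_eq_zero_of_trace_mul_eq_zero {V : Type} [AddCommGroup V] [Module T V]
    [Module.Free T V] [Module.Finite T V] (a : Module.End T V)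
    (h : ∀ x : Module.End T V, LinearMap.trace T V (a * x) = 0) : a = 0 := by
  classical
  let b := Module.Free.chooseBasis T V
  apply (LinearMap.toMatrix b b).injective
  rw [map_zero, Matrix.ext_iff_trace_mul_right]
  intro X
  have h1 := h ((LinearMap.toMatrix b b).symm X)
  rw [LinearMap.trace_eq_matrix_trace T b, LinearMap.toMatrix_mul,
    LinearEquiv.apply_symm_apply] at h1
  rw [h1, zero_mul, Matrix.trace_zero]

end Rigid

/-- **C1 (RIGID).** -/
theorem traceRigid : TraceRigidStatement := by
  intro T _ _ ρ habs τ hτ
  have htop := rig_span_range_eq_top ρ habs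
  have h0 : ∀ x : Module.End T ρ.V, LinearMap.trace T ρ.V ((ρ.ρ τ - 1) * x) = 0 := by
    intro x
    have hx : x ∈ Submodule.span T (Set.range ρ.ρ) := by rw [htop]; trivial
    induction hx using Submodule.span_induction with
    | mem x hx =>
      obtain ⟨g, rfl⟩ := hx
      rw [sub_mul, one_mul, ← map_mul, map_sub]
      exact sub_eq_zero.mpr (hτ g)
    | zero => rw [mul_zero, map_zero]
    | add x y _ _ hx hy => rw [mul_add, map_add, hx, hy, add_zero]
    | smul c x _ hx => rw [mul_smul_comm, map_smul, hx, smul_zero]
  exact sub_eq_zero.mp (rig_eq_zero_of_trace_mul_eq_zero _ h0)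

end Fermat.Agent.S31
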