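import Fermat.Agent.S31.Skeleton
import Fermat.Agent.S53.Burnside

/-!
# P-GALREP C1 (S31): `KerOfTrace`

Owner: helper67.

For a residually absolutely irreducible representation `ρ` over a local ring `T`, an element `σ`
with `tr ρ(σ g) = tr ρ(g)` for all `g` acts trivially.

Proof: by Burnside (landed in `Fermat.Agent.S53`), the residue-field span of the residual
representation is the full endomorphism algebra; by Nakayama the `T`-span of `ρ(G)` is
`End_T(V)`; the trace form on the endomorphisms of a finite free module is perfect.
-/

set_option autoImplicit false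

namespace Fermat.Agent.S31

open Module
open scoped TensorProduct

section Abstract

variable {T : Type*} [CommRing T] [IsLocalRing T]
  {V : Type*} [AddCommGroup V] [Module T V] [Module.Free T V] [Module.Finite T V]

/-- An endomorphism of a finite free module over a local ring whose base change to the residue
field vanishes lies in `𝔪 • End_T(V)`. -/
theorem KT_mem_smul_top_of_baseChange_eq_zero (g : Module.End T V)
    (hg : g.baseChange (IsLocalRing.ResidueField T) = 0) :
    g ∈ IsLocalRing.maximalIdeal T • (⊤ : Submodule T (Module.End T V)) := by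
  classical
  let b := Module.Free.chooseBasis T V
  have hentry : ∀ i j, LinearMap.toMatrix b b g i j ∈ IsLocalRing.maximalIdeal T := by
    intro i j
    have h1 := LinearMap.toMatrix_baseChange (A := IsLocalRing.ResidueField T) g b b
    rw [hg, map_zero] at h1
    have h2 : ((LinearMap.toMatrix b b g).map (algebraMap T (IsLocalRing.ResidueField T))) i j
        = 0 := by
      rw [← h1]; rfl
    rw [Matrix.map_apply, IsLocalRing.ResidueField.algebraMap_eq] at h2
    exact (IsLocalRing.residue_eq_zero_iff _).mp h2
  have hsum : g = ∑ i, ∑ j, LinearMap.toMatrix b b g i j •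
      (LinearMap.toMatrix b b).symm (Matrix.single i j (1 : T)) := by
    apply (LinearMap.toMatrix b b).injective
    rw [map_sum]
    conv_lhs => rw [Matrix.matrix_eq_sum_single (LinearMap.toMatrix b b g)]
    refine Finset.sum_congr rfl fun i _ => ?_
    rw [map_sum]
    refine Finset.sum_congr rfl fun j _ => ?_
    rw [map_smul, LinearEquiv.apply_symm_apply, Matrix.smul_single, smul_eq_mul, mul_one]
  rw [hsum]
  refine Submodule.sum_mem _ fun i _ => Submodule.sum_mem _ fun j _ => ?_
  exact Submodule.smul_mem_smul (hentry i j) Submodule.mem_top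

/-- **Nakayama for spans of endomorphisms.**  If the base changes to the residue field of a
family of endomorphisms of a finite free module over a local ring span the endomorphism algebra
of the special fibre, then the family spans `End_T(V)`. -/
theorem KT_span_eq_top {G : Type*} (ρ : G → Module.End T V)
    (hres : Submodule.span (IsLocalRing.ResidueField T)
      (Set.range fun g => (ρ g).baseChange (IsLocalRing.ResidueField T)) = ⊤) :
    Submodule.span T (Set.range ρ) = ⊤ := by
  classical
  rw [eq_top_iff]
  refine Submodule.le_of_le_smul_of_le_jacobson_bot (I := IsLocalRing.maximalIdeal T)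
    Module.Finite.fg_top (IsLocalRing.maximalIdeal_le_jacobson ⊥) ?_
  intro f _
  have key : ∀ F : Module.End (IsLocalRing.ResidueField T) (IsLocalRing.ResidueField T ⊗[T] V),
      F ∈ Submodule.span (IsLocalRing.ResidueField T)
        (Set.range fun g => (ρ g).baseChange (IsLocalRing.ResidueField T)) →
      ∃ e ∈ Submodule.span T (Set.range ρ), e.baseChange (IsLocalRing.ResidueField T) = F := by
    intro F hF
    induction hF using Submodule.span_induction with
    | mem x hx =>
      obtain ⟨g, rfl⟩ := hx
      exact ⟨ρ g, Submodule.subset_span ⟨g, rfl⟩, rfl⟩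
    | zero => exact ⟨0, Submodule.zero_mem _, LinearMap.baseChange_zero⟩
    | add x y _ _ hx hy =>
      obtain ⟨e1, h1, rfl⟩ := hx
      obtain ⟨e2, h2, rfl⟩ := hy
      exact ⟨e1 + e2, Submodule.add_mem _ h1 h2, LinearMap.baseChange_add _ _⟩
    | smul c x _ hx =>
      obtain ⟨e, he, rfl⟩ := hx
      obtain ⟨c', rfl⟩ := IsLocalRing.residue_surjective c
      refine ⟨c' • e, Submodule.smul_mem _ _ he, ?_⟩
      rw [LinearMap.baseChange_smul, ← algebraMap_smul (IsLocalRing.ResidueField T) c',
        IsLocalRing.ResidueField.algebraMap_eq]
  obtain ⟨e, he, hef⟩ := key (f.baseChange (IsLocalRing.ResidueField T))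
    (by rw [hres]; exact Submodule.mem_top)
  have hfe : f = e + (f - e) := by abel
  rw [hfe]
  refine Submodule.add_mem_sup he (KT_mem_smul_top_of_baseChange_eq_zero (f - e) ?_)
  rw [LinearMap.baseChange_sub, hef]
  exact sub_self (f.baseChange (IsLocalRing.ResidueField T))

omit [IsLocalRing T] in
/-- **Perfectness of the trace form** on the endomorphisms of a finite free module. -/
theorem KT_eq_zero_of_trace_mul_eq_zero (x : Module.End T V)
    (h : ∀ e : Module.End T V, LinearMap.trace T V (x * e) = 0) : x = 0 := by
  classical
  let b := Module.Free.chooseBasis T V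
  apply (LinearMap.toMatrix b b).injective
  rw [map_zero, Matrix.ext_iff_trace_mul_right]
  intro M
  have h1 := h ((LinearMap.toMatrix b b).symm M)
  rw [LinearMap.trace_eq_matrix_trace T b, LinearMap.toMatrix_mul,
    LinearEquiv.apply_symm_apply] at h1
  rw [h1, Matrix.zero_mul, Matrix.trace_zero]

/-- Abstract form of C1: a family `ρ : G → End_T(V)` whose residual span is everything, and an
endomorphism `s` with `tr (s * ρ g) = tr (ρ g)` for all `g`: then `s = 1`. -/
theorem KT_eq_one_of_trace {G : Type*} (ρ : G → Module.End T V)
    (hres : Submodule.span (IsLocalRing.ResidueField T)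
      (Set.range fun g => (ρ g).baseChange (IsLocalRing.ResidueField T)) = ⊤)
    (s : Module.End T V)
    (hs : ∀ g : G, LinearMap.trace T V (s * ρ g) = LinearMap.trace T V (ρ g)) : s = 1 := by
  have hE := KT_span_eq_top ρ hres
  have htr : ∀ e : Module.End T V, LinearMap.trace T V ((s - 1) * e) = 0 := by
    intro e
    have he : e ∈ Submodule.span T (Set.range ρ) := by rw [hE]; exact Submodule.mem_top
    induction he using Submodule.span_induction with
    | mem x hx =>
      obtain ⟨g, rfl⟩ := hx
      rw [sub_mul, one_mul, map_sub, hs g, sub_self]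
    | zero => rw [mul_zero, map_zero]
    | add x y _ _ hx hy => rw [mul_add, map_add, hx, hy, add_zero]
    | smul c x _ hx => rw [mul_smul_comm, map_smul, hx, smul_zero]
  exact sub_eq_zero.mp (KT_eq_zero_of_trace_mul_eq_zero (s - 1) htr)

end Abstract

/-- **C1 (KerOfTrace).** -/
theorem kerOfTrace : KerOfTraceStatement := by
  intro T _ _ ρ habs σ hσ
  have hres := Fermat.Agent.S53.residual_span_range_eq_top ρ.residual habs
  refine KT_eq_one_of_trace (fun g => ρ.ρ g) ?_ (ρ.ρ σ) ?_
  · exact hres
  · intro g
    rw [← map_mul]
    exact hσ g

end Fermat.Agent.S31
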