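import Fermat.Agent.S31.Skeleton

/-!
# P-GALREP M12: `HeckeKeyInt` from `HeckeKeyLattice`

Owner: helper67.  An element of a `ℤ`-subalgebra which is finitely generated as a `ℤ`-module
is integral over `ℤ`.
-/

set_option autoImplicit false

namespace Fermat.Agent.S31

/-- **M12.**  The lattice form of the Hecke key implies the integral form, for every `n`. -/
theorem heckeKeyInt_of_lattice (N : ℕ) [NeZero N] (h : HeckeKeyLattice N) (n : ℕ) :
    Fermat.Agent.S30.HeckeKeyInt N n := by
  obtain ⟨L, hL, hkey⟩ := h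
  intro P hP hkill
  obtain ⟨B, hB, hBeq⟩ := hkey n P hP hkill
  exact ⟨B, IsIntegral.of_mem_of_fg L hL B hB, hBeq⟩

end Fermat.Agent.S31
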