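import Fermat.Agent.S31.KerOfTrace
import Fermat.Agent.S31.TraceInvariance
import Fermat.Agent.S31.TatePackage
import Fermat.Agent.S30.Tate
import Fermat.Agent.S30.Assembly

/-!
# P-GALREP: S31 from the geometric inputs

`s31_of` : the representation of a Hecke–Galois datum is unramified at every prime outside `S`,
from the four geometric inputs (`GeometricInputsFull`).  Everything else is proved and landed:
`kerOfTrace` (C1), `traceInvariance_of` (C2), `tatePackage` (A3b), `tate` (A3a), weak Chebotarev.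

Author: helper30.
-/

set_option autoImplicit false

namespace Fermat.Agent.S31

open Fermat.Agent.S30 (GeometricInputsFull)

/-- The invariance of the trace (C2), from the geometric inputs only. -/
theorem traceInvariance (N p : ℕ) [NeZero N] : TraceInvarianceStatement N p :=
  traceInvariance_of Fermat.Agent.S30.tate (fun N p _ _ => tatePackage N p) N p

/-- S31 from the geometric inputs. -/
theorem s31_of (h : GeometricInputsFull)
    {p : ℕ} {N : ℕ} [NeZero N] {S : Finset ℕ}
    {𝒪 : Type} [CommRing 𝒪] [IsDomain 𝒪] [IsDiscreteValuationRing 𝒪]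
    [IsAdicComplete (IsLocalRing.maximalIdeal 𝒪) 𝒪]
    {θ : CuspForm.heckeAlgebra N 2 (↑S : Set ℕ) →+* IsLocalRing.ResidueField 𝒪}
    {T : Type} [CommRing T] [IsLocalRing T] [IsNoetherianRing T]
    [IsAdicComplete (IsLocalRing.maximalIdeal T) T] [Algebra 𝒪 T] [IsLocalHom (algebraMap 𝒪 T)]
    [Module.Finite 𝒪 T] [Module.Free 𝒪 T]
    (hp : p.Prime)
    (hp𝒪 : (p : 𝒪) ∈ IsLocalRing.maximalIdeal 𝒪) (hpS : p ∈ S)
    (hNS : ∀ q : ℕ, q.Prime → q ∣ N → q ∈ S)
    (H : CuspForm.HeckeGaloisRepDatum N (↑S : Set ℕ) 𝒪 θ T)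
    (q : ℕ) (hq : q.Prime) (hqS : q ∉ S) :
    H.ρ.IsUnramifiedAt q := by
  intro A hA σ hσ
  refine kerOfTrace T H.ρ H.residual_absIrr σ ?_
  intro g
  exact traceInvariance N p hp Fermat.Agent.Cheb.weakChebotarev (h.1 N) (h.2.1 N p hp)
    (fun k => h.2.2.1 N (p ^ k) (pow_pos hp.pos k)) (h.2.2.2 N) S hpS hNS 𝒪 hp𝒪 θ T H q hq hqS
    A hA σ hσ g

end Fermat.Agent.S31
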