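import Fermat.Agent.S31.Defs

/-!
# S31, task C2 (APPROX): `traceApprox : TraceApproxStatement`

* `apx_trace_mem`: an endomorphism of a finite free module with values in `I • ⊤` has trace
  in `I`.
* `apx_trace_pow`: for an endomorphism `a` of a free module of rank two with characteristic
  polynomial `X ^ 2 - b X + d`, `tr (a ^ n) = powTr b d n`.
-/

set_option autoImplicit false

open Polynomial

namespace Fermat.Agent.S31

/-! ## Traces of endomorphisms with values in `I • ⊤` -/

theorem apx_coord_mem {R : Type*} [CommRing R] {V : Type*} [AddCommGroup V] [Module R V]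
    (I : Ideal R) (c : V →ₗ[R] R) (x : V) (hx : x ∈ I • (⊤ : Submodule R V)) : c x ∈ I := by
  induction hx using Submodule.smul_induction_on' with
  | smul r hr v _ =>
    rw [map_smul, smul_eq_mul]
    exact I.mul_mem_right _ hr
  | add x _ y _ hx hy =>
    rw [map_add]
    exact I.add_mem hx hy

theorem apx_trace_mem {R : Type*} [CommRing R] {V : Type*} [AddCommGroup V] [Module R V]
    [Module.Free R V] [Module.Finite R V] (I : Ideal R) (φ : Module.End R V)
    (hφ : ∀ v, φ v ∈ I • (⊤ : Submodule R V)) : LinearMap.trace R V φ ∈ I := by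
  classical
  let b := Module.Free.chooseBasis R V
  rw [LinearMap.trace_eq_matrix_trace R b, Matrix.trace]
  refine I.sum_mem fun i _ => ?_
  rw [Matrix.diag_apply, LinearMap.toMatrix_apply]
  exact apx_coord_mem I (b.coord i) _ (hφ _)

/-! ## Power traces in rank two -/

theorem apx_matrix_trace_pow {R : Type*} [CommRing R] (M : Matrix (Fin 2) (Fin 2) R) (n : ℕ) :
    (M ^ n).trace = powTr M.trace M.det n := by
  have hCH : M ^ 2 = M.trace • M - M.det • (1 : Matrix _ _ R) := by
    ext i j
    fin_cases i <;> fin_cases j <;>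
      simp [pow_two, Matrix.mul_apply, Fin.sum_univ_two, Matrix.trace_fin_two,
        Matrix.det_fin_two] <;> ring
  have hrec : ∀ k : ℕ,
      (M ^ (k + 2)).trace = M.trace * (M ^ (k + 1)).trace - M.det * (M ^ k).trace := by
    intro k
    have : M ^ (k + 2) = M.trace • M ^ (k + 1) - M.det • M ^ k := by
      rw [pow_add, hCH, Matrix.mul_sub, Matrix.mul_smul, Matrix.mul_smul, Matrix.mul_one,
        ← pow_succ]
    rw [this, Matrix.trace_sub, Matrix.trace_smul, Matrix.trace_smul, smul_eq_mul, smul_eq_mul]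
  induction n using Nat.strong_induction_on with
  | _ n ih =>
    match n with
    | 0 => simp [powTr]
    | 1 => simp [powTr]
    | (k + 2) =>
      rw [hrec k, ih (k + 1) (by omega), ih k (by omega)]
      rfl

theorem apx_trace_pow {R : Type*} [CommRing R] [Nontrivial R] {V : Type*} [AddCommGroup V]
    [Module R V] [Module.Free R V] [Module.Finite R V] (hV : Module.finrank R V = 2)
    (a : Module.End R V) (b d : R) (ha : LinearMap.charpoly a = X ^ 2 - C b * X + C d) (n : ℕ) :
    LinearMap.trace R V (a ^ n) = powTr b d n := by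
  classical
  let e : Module.Basis (Fin 2) R V := Module.finBasisOfFinrankEq R V hV
  set M : Matrix (Fin 2) (Fin 2) R := LinearMap.toMatrix e e a with hM
  have hcp : M.charpoly = X ^ 2 - C b * X + C d := by
    rw [hM, LinearMap.charpoly_toMatrix, ha]
  rw [Matrix.charpoly_fin_two] at hcp
  have h1 : M.trace = b := by
    have := congrArg (fun q : R[X] => q.coeff 1) hcp
    simp only [coeff_add, coeff_sub, coeff_X_pow, coeff_C_mul, coeff_X_one, coeff_C] at this
    simpa using this
  have h0 : M.det = d := by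
    have := congrArg (fun q : R[X] => q.coeff 0) hcp
    simp only [coeff_add, coeff_sub, coeff_X_pow, coeff_C_mul, coeff_X_zero, coeff_C] at this
    simpa using this
  have hpow : LinearMap.toMatrix e e (a ^ n) = M ^ n := by
    rw [hM]
    exact (LinearMap.toMatrix_pow e a n).symm
  rw [LinearMap.trace_eq_matrix_trace R e, hpow, apx_matrix_trace_pow, h1, h0]

/-! ## The statement -/

/-- **C2 (APPROX).** -/
theorem traceApprox : TraceApproxStatement := by
  intro A _ _ ρ m
  obtain ⟨L, hL, hcont⟩ := ρ.isAdicContinuous m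
  refine ⟨L, hL, ?_⟩
  intro g f n b d hcp hg
  -- `u = (f ^ n)⁻¹ * g` fixes `L` pointwise
  set u : GalQ := (f ^ n)⁻¹ * g with hu
  have hfix : ∀ x ∈ L, u x = x := by
    intro x hx
    have h1 : u x = (f ^ n)⁻¹ (g x) := rfl
    rw [h1, hg x hx]
    exact (f ^ n).symm_apply_apply x
  have hgu : g = f ^ n * u := by
    rw [hu, mul_inv_cancel_left]
  have hρg : ρ.ρ g = ρ.ρ f ^ n * ρ.ρ u := by
    rw [hgu, map_mul, map_pow]
  have hsplit : ρ.ρ g = ρ.ρ f ^ n + ρ.ρ f ^ n * (ρ.ρ u - 1) := by
    rw [hρg, mul_sub, mul_one]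
    abel
  have htr : ρ.trace g - powTr b d n
      = LinearMap.trace A ρ.V (ρ.ρ f ^ n * (ρ.ρ u - 1)) := by
    unfold GaloisRepAdic.trace
    rw [hsplit, map_add, apx_trace_pow ρ.finrank_eq (ρ.ρ f) b d hcp n]
    ring
  rw [htr]
  apply apx_trace_mem
  intro v
  have h1 : (ρ.ρ u - 1) v ∈ (IsLocalRing.maximalIdeal A ^ m) • (⊤ : Submodule A ρ.V) :=
    hcont u hfix v
  have h2 : (ρ.ρ f ^ n * (ρ.ρ u - 1)) v = (ρ.ρ f ^ n) ((ρ.ρ u - 1) v) := rfl
  rw [h2]
  have h3 : Submodule.map (ρ.ρ f ^ n) ((IsLocalRing.maximalIdeal A ^ m) • (⊤ : Submodule A ρ.V))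
      ≤ (IsLocalRing.maximalIdeal A ^ m) • (⊤ : Submodule A ρ.V) := by
    rw [Submodule.map_smul'']
    exact Submodule.smul_mono le_rfl le_top
  exact h3 (Submodule.mem_map_of_mem h1)

end Fermat.Agent.S31
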