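import Fermat.Agent.S31.Defs

/-!
# S31, module C3 (CORE): S31 from weak Chebotarev, RIGID, APPROX and GATE

Author: helper98.  `core : CoreStatement`.
-/

set_option autoImplicit false

open Polynomial

namespace Fermat.Agent.S31

/-- `powTr` commutes with ring homomorphisms. -/
theorem core_map_powTr {R R' : Type*} [CommRing R] [CommRing R'] (φ : R →+* R') (b d : R) :
    ∀ n : ℕ, φ (powTr b d n) = powTr (φ b) (φ d) n
  | 0 => by
      rw [powTr, powTr]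
      exact map_ofNat φ 2
  | 1 => by rw [powTr, powTr]
  | (n + 2) => by
      rw [powTr, powTr, map_sub, map_mul, map_mul, core_map_powTr φ b d (n + 1),
        core_map_powTr φ b d n]

/-- the image of a Hecke power under a ring homomorphism. -/
theorem core_map_heckePow {N : ℕ} [NeZero N] {S : Finset ℕ} {R' : Type*} [CommRing R']
    (φ : HeckeAlg N S →+* R') {ℓ : ℕ} (hℓ : ℓ.Prime) (hℓN : ¬ ℓ ∣ N)
    (hℓS : ℓ ∉ (↑S : Set ℕ)) (n : ℕ) :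
    φ (heckePow N S hℓ hℓN hℓS n)
      = powTr (φ (CuspForm.heckeAlgebra.T hℓ hℓN hℓS)) ((ℓ : ℕ) : R') n := by
  rw [heckePow, core_map_powTr, map_natCast]

/-- in a module over itself, membership in all powers of the maximal ideal forces zero. -/
theorem core_eq_zero_of_forall_mem_pow {T : Type*} [CommRing T] [IsLocalRing T]
    [IsHausdorff (IsLocalRing.maximalIdeal T) T] (x : T)
    (h : ∀ m : ℕ, x ∈ IsLocalRing.maximalIdeal T ^ m) : x = 0 := by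
  apply IsHausdorff.haus (I := IsLocalRing.maximalIdeal T) inferInstance
  intro m
  rw [SModEq.zero]
  rw [smul_eq_mul, Ideal.mul_top]
  exact h m

/-- the image of `p` in `T` lies in the maximal ideal. -/
theorem core_natCast_mem {𝒪 T : Type*} [CommRing 𝒪] [IsLocalRing 𝒪] [CommRing T] [IsLocalRing T]
    [Algebra 𝒪 T] [IsLocalHom (algebraMap 𝒪 T)] {p : ℕ}
    (hp : (p : 𝒪) ∈ IsLocalRing.maximalIdeal 𝒪) : (p : T) ∈ IsLocalRing.maximalIdeal T := by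
  rw [IsLocalRing.mem_maximalIdeal, mem_nonunits_iff] at hp ⊢
  intro hu
  apply hp
  have : (algebraMap 𝒪 T) (p : 𝒪) = (p : T) := map_natCast _ _
  rw [← this] at hu
  exact IsLocalHom.map_nonunit _ hu

/-- **C3 (CORE).** -/
theorem core : CoreStatement := by
  intro hCheb hRigid hApprox hGate p N _ S 𝒪 _ _ _ _ θ T _ _ _ _ _ _ _ _ hp hp𝒪 hpS hNS H q hq
    hqS Q hQ τ hτ
  refine hRigid T H.ρ H.residual_absIrr τ fun g => ?_
  rw [← sub_eq_zero]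
  have : IsHausdorff (IsLocalRing.maximalIdeal T) T := inferInstance
  refine core_eq_zero_of_forall_mem_pow _ fun m => ?_
  obtain ⟨L1, hL1fd, hL1⟩ := hApprox T H.ρ m
  obtain ⟨L2, hL2fd, hL2⟩ := hGate p hp N S hpS hNS q hq hqS Q hQ τ hτ m
  have := hL1fd
  have := hL2fd
  have hLfd : FiniteDimensional ℚ (L1 ⊔ L2 : IntermediateField ℚ (AlgebraicClosure ℚ)) :=
    IntermediateField.finiteDimensional_sup L1 L2
  obtain ⟨ℓ, hℓ, hℓS, P, hP, f, hf, n, hgf⟩ := hCheb (L1 ⊔ L2) hLfd g S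
  obtain ⟨ℓ', hℓ', hℓ'S, P', hP', f', hf', n', hgf'⟩ := hCheb (L1 ⊔ L2) hLfd (τ * g) S
  have hℓN : ¬ ℓ ∣ N := fun h => hℓS (hNS ℓ hℓ h)
  have hℓ'N : ¬ ℓ' ∣ N := fun h => hℓ'S (hNS ℓ' hℓ' h)
  have hℓS' : ℓ ∉ (↑S : Set ℕ) := fun h => hℓS (Finset.mem_coe.mp h)
  have hℓ'S' : ℓ' ∉ (↑S : Set ℕ) := fun h => hℓ'S (Finset.mem_coe.mp h)
  have hle1 : L1 ≤ L1 ⊔ L2 := le_sup_left
  have hle2 : L2 ≤ L1 ⊔ L2 := le_sup_right
  -- approximation of the two traces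
  have h1 := hL1 g f n (H.π (CuspForm.heckeAlgebra.T hℓ hℓN hℓS')) ((ℓ : ℕ) : T)
    (H.charpoly_frob ℓ hℓ hℓN hℓS' P hP f hf) (fun x hx => hgf x (hle1 hx))
  have h2 := hL1 (τ * g) f' n' (H.π (CuspForm.heckeAlgebra.T hℓ' hℓ'N hℓ'S')) ((ℓ' : ℕ) : T)
    (H.charpoly_frob ℓ' hℓ' hℓ'N hℓ'S' P' hP' f' hf') (fun x hx => hgf' x (hle1 hx))
  -- the gate
  obtain ⟨z, hz⟩ := hL2 g f f' n n' ℓ ℓ' hℓ hℓN hℓS' hℓ' hℓ'N hℓ'S' P P' hP hf hP' hf'
    (fun x hx => hgf x (hle2 hx)) (fun x hx => hgf' x (hle2 hx))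
  have h3 : powTr (H.π (CuspForm.heckeAlgebra.T hℓ' hℓ'N hℓ'S')) ((ℓ' : ℕ) : T) n'
      - powTr (H.π (CuspForm.heckeAlgebra.T hℓ hℓN hℓS')) ((ℓ : ℕ) : T) n
      ∈ IsLocalRing.maximalIdeal T ^ m := by
    rw [← core_map_heckePow H.π hℓ' hℓ'N hℓ'S' n', ← core_map_heckePow H.π hℓ hℓN hℓS' n,
      ← map_sub, hz, map_mul, map_pow, map_natCast]
    exact Ideal.mul_mem_right _ _ (Ideal.pow_mem_pow (core_natCast_mem (𝒪 := 𝒪) hp𝒪) m)
  have key : H.ρ.trace (τ * g) - H.ρ.trace g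
      = (H.ρ.trace (τ * g)
          - powTr (H.π (CuspForm.heckeAlgebra.T hℓ' hℓ'N hℓ'S')) ((ℓ' : ℕ) : T) n')
        - (H.ρ.trace g
          - powTr (H.π (CuspForm.heckeAlgebra.T hℓ hℓN hℓS')) ((ℓ : ℕ) : T) n)
        + (powTr (H.π (CuspForm.heckeAlgebra.T hℓ' hℓ'N hℓ'S')) ((ℓ' : ℕ) : T) n'
          - powTr (H.π (CuspForm.heckeAlgebra.T hℓ hℓN hℓS')) ((ℓ : ℕ) : T) n) := by
    ring
  rw [key]
  exact Ideal.add_mem _ (Ideal.sub_mem _ h2 h1) h3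

end Fermat.Agent.S31
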