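import Fermat.Prelude.Def_CuspForm_HeckeGaloisRepDatum

/-!
# S31 (unramifiedness of a Hecke–Galois datum outside `S`): interface skeleton

Architect: helper98.  Every declaration here is a definition or a `def ... : Prop`
(a frozen interface); nothing is assumed.  Blueprint: findings stmt='S31' kind='blueprint'.

Route.  Let `H` be a Hecke–Galois datum with ring `T`, `τ` an inertia element at `q ∉ S`.

* (RIGID) the residual representation is absolutely irreducible, so `ρ(τ) = 1` as soon as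
  `tr ρ(τ g) = tr ρ(g)` for all `g` (Burnside, Nakayama, perfectness of the trace pairing).
* (APPROX) by continuity and weak Chebotarev, `tr ρ(g)` is congruent modulo `𝔪_T ^ m` to
  `π (powTr T_ℓ ℓ n)` whenever `g` acts on a suitable number field as `Frob_ℓ ^ n`.
* (GATE) if `g ≡ Frob_ℓ ^ n` and `τ g ≡ Frob_ℓ' ^ n'` on a suitable number field, then
  `powTr T_ℓ' ℓ' n' - powTr T_ℓ ℓ n ∈ p ^ m 𝕋`.  This is where the arithmetic of the Hecke
  algebra enters: route A proves it from the frozen statement S30 (Galois representations of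
  the characters of `𝕋`, unramified at `q`) together with the fact that `𝕋` is reduced
  (Petersson), so that the characters of `𝕋` with values in a `p`-adic ring define the `p`-adic
  topology of `𝕋`.
-/

set_option autoImplicit false

open Polynomial

namespace Fermat.Agent.S31

/-- the absolute Galois group of `ℚ` -/
abbrev GalQ : Type := AlgebraicClosure ℚ ≃ₐ[ℚ] AlgebraicClosure ℚ

/-- the weight-2 Hecke algebra of level `N` away from `S` -/
abbrev HeckeAlg (N : ℕ) [NeZero N] (S : Finset ℕ) : Type :=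
  CuspForm.heckeAlgebra N 2 (↑S : Set ℕ)

/-- power traces: `powTr b d n = tr (A ^ n)` for a `2 × 2` matrix `A` with characteristic
polynomial `X ^ 2 - b X + d`. -/
def powTr {R : Type*} [CommRing R] (b d : R) : ℕ → R
  | 0 => 2
  | 1 => b
  | (n + 2) => b * powTr b d (n + 1) - d * powTr b d n

/-- the Hecke element `powTr T_ℓ ℓ n` ("trace of `Frob_ℓ ^ n`"). -/
noncomputable def heckePow (N : ℕ) [NeZero N] (S : Finset ℕ) {ℓ : ℕ} (hℓ : ℓ.Prime)
    (hℓN : ¬ ℓ ∣ N) (hℓS : ℓ ∉ (↑S : Set ℕ)) (n : ℕ) : HeckeAlg N S :=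
  powTr (CuspForm.heckeAlgebra.T hℓ hℓN hℓS) ((ℓ : ℕ) : HeckeAlg N S) n

/-! ## Inputs -/

/-- weak Chebotarev, cyclic form (definitionally `Fermat.Agent.S29.WeakChebotarev`, proved as
`Fermat.Agent.Cheb.weakChebotarev`). -/
def WeakCheb : Prop :=
  ∀ (L : IntermediateField ℚ (AlgebraicClosure ℚ)), FiniteDimensional ℚ L →
    ∀ (g : GalQ) (S : Finset ℕ),
      ∃ (ℓ : ℕ) (_ : ℓ.Prime) (_ : ℓ ∉ S) (A : ValuationSubring (AlgebraicClosure ℚ))
        (_ : A.LiesOverPrime ℓ) (f : GalQ) (_ : A.IsFrobeniusAt f ℓ) (n : ℕ),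
        ∀ x ∈ L, g x = (f ^ n) x

/-- the frozen statement S30, verbatim. -/
def S30Statement : Prop :=
    ∀ (p : ℕ) [Fact p.Prime] (N : ℕ) [NeZero N] (S : Finset ℕ)
      (_hpS : p ∈ S) (_hNS : ∀ q : ℕ, q.Prime → q ∣ N → q ∈ S)
      (𝒪' : Type) [CommRing 𝒪'] [IsDomain 𝒪'] [IsDiscreteValuationRing 𝒪']
      [IsAdicComplete (IsLocalRing.maximalIdeal 𝒪') 𝒪'] [Finite (IsLocalRing.ResidueField 𝒪')]
      [CharZero 𝒪'] (_hp𝒪' : (p : 𝒪') ∈ IsLocalRing.maximalIdeal 𝒪')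
      (χ : CuspForm.heckeAlgebra N 2 (↑S : Set ℕ) →+* 𝒪'),
      ∃ (𝒪'' : Type) (_ : CommRing 𝒪'') (_ : IsDomain 𝒪'') (_ : IsDiscreteValuationRing 𝒪'')
        (_ : IsAdicComplete (IsLocalRing.maximalIdeal 𝒪'') 𝒪'')
        (_ : Finite (IsLocalRing.ResidueField 𝒪'')) (_ : CharZero 𝒪'')
        (_ : Algebra 𝒪' 𝒪'') (_ : Module.Finite 𝒪' 𝒪'') (_ : IsLocalHom (algebraMap 𝒪' 𝒪'')),
      Function.Injective (algebraMap 𝒪' 𝒪'') ∧
      ∃ ρ : GaloisRepAdic 𝒪'',
        (∀ (ℓ : ℕ) (hℓ : ℓ.Prime) (hℓN : ¬ ℓ ∣ N) (hℓS : ℓ ∉ (↑S : Set ℕ)),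
          ∀ A : ValuationSubring (AlgebraicClosure ℚ), A.LiesOverPrime ℓ →
            ∀ σ : AlgebraicClosure ℚ ≃ₐ[ℚ] AlgebraicClosure ℚ, A.IsFrobeniusAt σ ℓ →
              LinearMap.charpoly (ρ.ρ σ) =
                X ^ 2 - C (algebraMap 𝒪' 𝒪'' (χ (CuspForm.heckeAlgebra.T hℓ hℓN hℓS))) * X
                  + C ((ℓ : 𝒪''))) ∧
        (∀ q : ℕ, q.Prime → ¬ q ∣ N → q ≠ p → ρ.IsUnramifiedAt q)

/-- the conclusion of the frozen statement S31 (all binders of the template). -/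
def S31Statement : Prop :=
  ∀ {p : ℕ} {N : ℕ} [NeZero N] {S : Finset ℕ}
    {𝒪 : Type} [CommRing 𝒪] [IsDomain 𝒪] [IsDiscreteValuationRing 𝒪]
    [IsAdicComplete (IsLocalRing.maximalIdeal 𝒪) 𝒪]
    {θ : CuspForm.heckeAlgebra N 2 (↑S : Set ℕ) →+* IsLocalRing.ResidueField 𝒪}
    {T : Type} [CommRing T] [IsLocalRing T] [IsNoetherianRing T]
    [IsAdicComplete (IsLocalRing.maximalIdeal T) T] [Algebra 𝒪 T] [IsLocalHom (algebraMap 𝒪 T)]
    [Module.Finite 𝒪 T] [Module.Free 𝒪 T]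
    (_hp : p.Prime) (_hp𝒪 : (p : 𝒪) ∈ IsLocalRing.maximalIdeal 𝒪) (_hpS : p ∈ S)
    (_hNS : ∀ q : ℕ, q.Prime → q ∣ N → q ∈ S)
    (H : CuspForm.HeckeGaloisRepDatum N (↑S : Set ℕ) 𝒪 θ T)
    (q : ℕ) (_hq : q.Prime) (_hqS : q ∉ S), H.ρ.IsUnramifiedAt q

/-! ## Core (route independent) -/

/-- **C1 (RIGID).**  Trace rigidity: for a residually absolutely irreducible representation over a
local ring, an element `τ` with `tr ρ(τ g) = tr ρ(g)` for all `g` acts trivially. -/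
def TraceRigidStatement : Prop :=
  ∀ (T : Type) [CommRing T] [IsLocalRing T] (ρ : GaloisRepAdic T),
    ρ.residual.IsAbsolutelyIrreducible →
    ∀ τ : GalQ, (∀ g : GalQ, ρ.trace (τ * g) = ρ.trace g) → ρ.ρ τ = 1

/-- **C2 (APPROX).**  For every `m` there is a number field `L` such that whenever `g` acts on
`L` as `f ^ n` and `ρ f` has characteristic polynomial `X ^ 2 - b X + d`, then
`tr ρ(g) ≡ powTr b d n` modulo `𝔪 ^ m`. -/
def TraceApproxStatement : Prop :=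
  ∀ (A : Type) [CommRing A] [IsLocalRing A] (ρ : GaloisRepAdic A) (m : ℕ),
    ∃ L : IntermediateField ℚ (AlgebraicClosure ℚ), FiniteDimensional ℚ L ∧
      ∀ (g f : GalQ) (n : ℕ) (b d : A),
        LinearMap.charpoly (ρ.ρ f) = X ^ 2 - C b * X + C d →
        (∀ x ∈ L, g x = (f ^ n) x) →
        ρ.trace g - powTr b d n ∈ IsLocalRing.maximalIdeal A ^ m

/-- **GATE.**  The arithmetic input: for an inertia element `τ` at `q ∉ S` and every `m` there is
a number field `L` such that, whenever `g` acts on `L` as `f ^ n` and `τ g` acts on `L` as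
`f' ^ n'` (`f`, `f'` Frobenius elements at primes `ℓ, ℓ' ∉ S`), the Hecke elements
`powTr T_ℓ' ℓ' n'` and `powTr T_ℓ ℓ n` are congruent modulo `p ^ m`. -/
def HeckeGate (p N : ℕ) [NeZero N] (S : Finset ℕ) : Prop :=
  ∀ (q : ℕ), q.Prime → q ∉ S →
    ∀ (Q : ValuationSubring (AlgebraicClosure ℚ)), Q.LiesOverPrime q →
    ∀ τ ∈ Q.inertiaSubgroupIn ℚ, ∀ m : ℕ,
      ∃ L : IntermediateField ℚ (AlgebraicClosure ℚ), FiniteDimensional ℚ L ∧
        ∀ (g f f' : GalQ) (n n' : ℕ) (ℓ ℓ' : ℕ)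
          (hℓ : ℓ.Prime) (hℓN : ¬ ℓ ∣ N) (hℓS : ℓ ∉ (↑S : Set ℕ))
          (hℓ' : ℓ'.Prime) (hℓ'N : ¬ ℓ' ∣ N) (hℓ'S : ℓ' ∉ (↑S : Set ℕ))
          (P P' : ValuationSubring (AlgebraicClosure ℚ)),
          P.LiesOverPrime ℓ → P.IsFrobeniusAt f ℓ →
          P'.LiesOverPrime ℓ' → P'.IsFrobeniusAt f' ℓ' →
          (∀ x ∈ L, g x = (f ^ n) x) → (∀ x ∈ L, (τ * g) x = (f' ^ n') x) →
          ∃ z : HeckeAlg N S,
            heckePow N S hℓ' hℓ'N hℓ'S n' - heckePow N S hℓ hℓN hℓS n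
              = ((p : ℕ) : HeckeAlg N S) ^ m * z

/-- **C3 (CORE).**  S31 from weak Chebotarev, RIGID, APPROX and GATE. -/
def CoreStatement : Prop :=
  WeakCheb → TraceRigidStatement → TraceApproxStatement →
    (∀ (p : ℕ), p.Prime → ∀ (N : ℕ) [NeZero N] (S : Finset ℕ), p ∈ S →
      (∀ q : ℕ, q.Prime → q ∣ N → q ∈ S) → HeckeGate p N S) →
    S31Statement

/-! ## Route A: GATE from S30 and the separation property of the Hecke algebra -/

/-- **A1 (DVREXT).**  An injective local homomorphism of discrete valuation rings is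
"bounded": there is `e` with `ι a ∈ 𝔪'' ^ (e * M) → a ∈ 𝔪' ^ M`. -/
def DvrExtStatement : Prop :=
  ∀ (A B : Type) [CommRing A] [IsDomain A] [IsDiscreteValuationRing A]
    [CommRing B] [IsDomain B] [IsDiscreteValuationRing B] (ι : A →+* B),
    Function.Injective ι → IsLocalHom ι →
    ∃ e : ℕ, ∀ (M : ℕ) (a : A),
      ι a ∈ IsLocalRing.maximalIdeal B ^ (e * M) → a ∈ IsLocalRing.maximalIdeal A ^ M

/-- the per-character congruence: the conclusion of GATE seen through a character `χ`. -/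
def CharGate (N : ℕ) [NeZero N] (S : Finset ℕ) (𝒪' : Type) [CommRing 𝒪'] [IsLocalRing 𝒪']
    (χ : HeckeAlg N S →+* 𝒪') : Prop :=
  ∀ (q : ℕ), q.Prime → q ∉ S →
    ∀ (Q : ValuationSubring (AlgebraicClosure ℚ)), Q.LiesOverPrime q →
    ∀ τ ∈ Q.inertiaSubgroupIn ℚ, ∀ M : ℕ,
      ∃ L : IntermediateField ℚ (AlgebraicClosure ℚ), FiniteDimensional ℚ L ∧
        ∀ (g f f' : GalQ) (n n' : ℕ) (ℓ ℓ' : ℕ)
          (hℓ : ℓ.Prime) (hℓN : ¬ ℓ ∣ N) (hℓS : ℓ ∉ (↑S : Set ℕ))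
          (hℓ' : ℓ'.Prime) (hℓ'N : ¬ ℓ' ∣ N) (hℓ'S : ℓ' ∉ (↑S : Set ℕ))
          (P P' : ValuationSubring (AlgebraicClosure ℚ)),
          P.LiesOverPrime ℓ → P.IsFrobeniusAt f ℓ →
          P'.LiesOverPrime ℓ' → P'.IsFrobeniusAt f' ℓ' →
          (∀ x ∈ L, g x = (f ^ n) x) → (∀ x ∈ L, (τ * g) x = (f' ^ n') x) →
          χ (heckePow N S hℓ' hℓ'N hℓ'S n' - heckePow N S hℓ hℓN hℓS n)
            ∈ IsLocalRing.maximalIdeal 𝒪' ^ M

/-- **A2 (PERCHAR).**  From S30: every character of the Hecke algebra with values in a complete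
discrete valuation ring of characteristic zero with finite residue field of characteristic `p`
satisfies `CharGate`. -/
def PerCharStatement : Prop :=
  S30Statement → TraceApproxStatement → DvrExtStatement →
  ∀ (p : ℕ), p.Prime → ∀ (N : ℕ) [NeZero N] (S : Finset ℕ), p ∈ S →
    (∀ q : ℕ, q.Prime → q ∣ N → q ∈ S) →
    ∀ (𝒪' : Type) [CommRing 𝒪'] [IsDomain 𝒪'] [IsDiscreteValuationRing 𝒪']
      [IsAdicComplete (IsLocalRing.maximalIdeal 𝒪') 𝒪'] [Finite (IsLocalRing.ResidueField 𝒪')]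
      [CharZero 𝒪'], (p : 𝒪') ∈ IsLocalRing.maximalIdeal 𝒪' →
      ∀ χ : HeckeAlg N S →+* 𝒪', CharGate N S 𝒪' χ

/-- the separation property of a ring `𝕋` at `p`: finitely many characters with values in one
complete discrete valuation ring (characteristic zero, finite residue field of characteristic
`p`) define the `p`-adic topology of `𝕋`. -/
def SepAt (p : ℕ) (𝕋 : Type) [CommRing 𝕋] : Prop :=
  ∃ (𝒪' : Type) (_ : CommRing 𝒪') (_ : IsDomain 𝒪') (_ : IsDiscreteValuationRing 𝒪')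
    (_ : IsAdicComplete (IsLocalRing.maximalIdeal 𝒪') 𝒪')
    (_ : Finite (IsLocalRing.ResidueField 𝒪')) (_ : CharZero 𝒪'),
    (p : 𝒪') ∈ IsLocalRing.maximalIdeal 𝒪' ∧
    ∃ (s : ℕ) (χ : Fin s → (𝕋 →+* 𝒪')),
      ∀ m : ℕ, ∃ M : ℕ, ∀ y : 𝕋,
        (∀ j, χ j y ∈ IsLocalRing.maximalIdeal 𝒪' ^ M) → ∃ z : 𝕋, y = ((p : ℕ) : 𝕋) ^ m * z

/-- **SEP.**  The Hecke algebra away from `S ⊇ {q ∣ N}` has the separation property at every
prime `p`. -/
def HeckeSepStatement : Prop :=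
  ∀ (p : ℕ), p.Prime → ∀ (N : ℕ) [NeZero N] (S : Finset ℕ),
    (∀ q : ℕ, q.Prime → q ∣ N → q ∈ S) → SepAt p (HeckeAlg N S)

/-- **A3 (GATE-A).**  GATE from PERCHAR and SEP. -/
def GateOfSepStatement : Prop :=
  ∀ (p : ℕ), p.Prime → ∀ (N : ℕ) [NeZero N] (S : Finset ℕ),
    (∀ (𝒪' : Type) [CommRing 𝒪'] [IsDomain 𝒪'] [IsDiscreteValuationRing 𝒪']
      [IsAdicComplete (IsLocalRing.maximalIdeal 𝒪') 𝒪'] [Finite (IsLocalRing.ResidueField 𝒪')]
      [CharZero 𝒪'], (p : 𝒪') ∈ IsLocalRing.maximalIdeal 𝒪' →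
      ∀ χ : HeckeAlg N S →+* 𝒪', CharGate N S 𝒪' χ) →
    SepAt p (HeckeAlg N S) → HeckeGate p N S

/-! ## SEP from reducedness (pure commutative algebra) -/

/-- **E1 (CHARTRACE).**  For a reduced commutative ring `𝕋` which is finite and free over `ℤ` there are
a number field `F` and characters `lam j : 𝕋 → 𝓞 F` such that the trace of (multiplication by)
`x` is `∑ j, lam j x`. -/
def CharTraceStatement : Prop :=
  ∀ (𝕋 : Type) [CommRing 𝕋] [Module.Finite ℤ 𝕋] [Module.Free ℤ 𝕋] [IsReduced 𝕋],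
    ∃ (F : Type) (_ : Field F) (_ : NumberField F) (s : ℕ)
      (lam : Fin s → (𝕋 →+* NumberField.RingOfIntegers F)),
      ∀ x : 𝕋, ((Algebra.trace ℤ 𝕋 x : ℤ) : NumberField.RingOfIntegers F) = ∑ j, lam j x

/-- **E2 (DISC).**  The trace form of a reduced commutative ring which is finite and free over
`ℤ` is nondegenerate: an element `x` with `Tr (x y) = 0` for all `y` is zero. -/
def TraceFormNondegStatement : Prop :=
  ∀ (𝕋 : Type) [CommRing 𝕋] [Module.Finite ℤ 𝕋] [Module.Free ℤ 𝕋] [IsReduced 𝕋] (x : 𝕋),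
    (∀ y : 𝕋, Algebra.trace ℤ 𝕋 (x * y) = 0) → x = 0

/-- **E3 (DVRCOMPL).**  The ring of integers of a number field embeds in a complete discrete
valuation ring of characteristic zero with finite residue field of characteristic `p`. -/
def DvrComplStatement : Prop :=
  ∀ (p : ℕ), p.Prime → ∀ (F : Type) [Field F] [NumberField F],
    ∃ (𝒪' : Type) (_ : CommRing 𝒪') (_ : IsDomain 𝒪') (_ : IsDiscreteValuationRing 𝒪')
      (_ : IsAdicComplete (IsLocalRing.maximalIdeal 𝒪') 𝒪')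
      (_ : Finite (IsLocalRing.ResidueField 𝒪')) (_ : CharZero 𝒪'),
      (p : 𝒪') ∈ IsLocalRing.maximalIdeal 𝒪' ∧
      ∃ ι : NumberField.RingOfIntegers F →+* 𝒪', Function.Injective ι

/-- **E4 (ETALESEP).**  A reduced commutative ring, finite and free over `ℤ`, has the separation
property at every prime. -/
def EtaleSepStatement : Prop :=
  CharTraceStatement → TraceFormNondegStatement → DvrComplStatement →
  ∀ (p : ℕ), p.Prime →
    ∀ (𝕋 : Type) [CommRing 𝕋] [Module.Finite ℤ 𝕋] [Module.Free ℤ 𝕋] [IsReduced 𝕋], SepAt p 𝕋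

/-! ## Reducedness of the Hecke algebra (Petersson) -/

/-- **PET.**  There is a positive definite Hermitian form on `S₂(Γ₀(N))` for which the Hecke
operators `T_ℓ`, `ℓ ∤ N`, are self-adjoint (the Petersson inner product). -/
def PeterssonStatement : Prop :=
  ∀ (N : ℕ) [NeZero N],
    ∃ B : CuspForm (CongruenceSubgroup.Gamma0 N) 2 → CuspForm (CongruenceSubgroup.Gamma0 N) 2 → ℂ,
      (∀ f g h, B (f + g) h = B f h + B g h) ∧
      (∀ (c : ℂ) f g, B (c • f) g = c * B f g) ∧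
      (∀ f g, B g f = (starRingEnd ℂ) (B f g)) ∧
      (∀ f, f ≠ 0 → 0 < (B f f).re) ∧
      ∀ (ℓ : ℕ) (hℓ : ℓ.Prime) (hℓN : ¬ ℓ ∣ N) (f g : CuspForm (CongruenceSubgroup.Gamma0 N) 2),
        B (CuspForm.heckeTLin 2 hℓ hℓN f) g = B f (CuspForm.heckeTLin 2 hℓ hℓN g)

/-- **P0 (REDUCED).**  From PET: the Hecke algebra away from `S ⊇ {q ∣ N}` is reduced. -/
def HeckeReducedStatement : Prop :=
  PeterssonStatement →
  ∀ (N : ℕ) [NeZero N] (S : Finset ℕ), (∀ q : ℕ, q.Prime → q ∣ N → q ∈ S) →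
    IsReduced (HeckeAlg N S)

/-- **E5 (SEP assembly).**  SEP from reducedness, finiteness (S22) and ETALESEP. -/
def HeckeSepAssembly : Prop :=
  (∀ (N : ℕ) [NeZero N] (S : Finset ℕ), (∀ q : ℕ, q.Prime → q ∣ N → q ∈ S) →
    IsReduced (HeckeAlg N S)) →
  (∀ (N : ℕ) [NeZero N] (S : Finset ℕ), Module.Finite ℤ (HeckeAlg N S)) →
  (∀ (p : ℕ), p.Prime →
    ∀ (𝕋 : Type) [CommRing 𝕋] [Module.Finite ℤ 𝕋] [Module.Free ℤ 𝕋] [IsReduced 𝕋], SepAt p 𝕋) →
  HeckeSepStatement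

/-! ## Final -/

/-- **S31 from S30** (route A): everything except S30 is to be proved unconditionally. -/
def S31OfS30 : Prop := S30Statement → S31Statement

end Fermat.Agent.S31
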