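import Fermat.Agent.S31.Defs

/-!
# S31 / E3 (DVRCOMPL)

The ring of integers of a number field embeds in a complete discrete valuation ring of
characteristic zero with finite residue field of characteristic `p`: the adic completion of the
localization of `𝓞 F` at a maximal ideal over `p`.

Author: helper33.  All auxiliary names carry the prefix `dvc_`.
-/

set_option autoImplicit false
set_option linter.style.haveILetI false

open IsLocalRing

namespace Fermat.Agent.S31

section General

variable {B : Type*} [CommRing B] [IsLocalRing B]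

/-- In a local ring which is Hausdorff for its maximal ideal `(ϖ)`, every nonzero element is
`ϖ ^ n` times a unit. -/
theorem dvc_exists_pow_mul_unit (ϖ : B) (hm : maximalIdeal B = Ideal.span {ϖ})
    [IsHausdorff (maximalIdeal B) B] {x : B} (hx : x ≠ 0) :
    ∃ (n : ℕ) (u : Bˣ), x = ϖ ^ n * u := by
  classical
  have hex : ∃ n : ℕ, x ∉ maximalIdeal B ^ n := by
    by_contra hcon
    push Not at hcon
    apply hx
    apply IsHausdorff.haus (inferInstance : IsHausdorff (maximalIdeal B) B)
    intro n
    rw [SModEq.zero]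
    simpa using hcon n
  have hn : x ∉ maximalIdeal B ^ (Nat.find hex) := Nat.find_spec hex
  have hn0 : Nat.find hex ≠ 0 := by
    intro h0
    rw [h0, pow_zero, Ideal.one_eq_top] at hn
    exact hn Submodule.mem_top
  obtain ⟨k, hk⟩ := Nat.exists_eq_succ_of_ne_zero hn0
  have hk' : x ∈ maximalIdeal B ^ k := by
    by_contra h
    have := Nat.find_min' hex h
    omega
  rw [hm, Ideal.span_singleton_pow, Ideal.mem_span_singleton] at hk'
  obtain ⟨y, rfl⟩ := hk'
  have hy : IsUnit y := by
    by_contra hy
    have hy' : y ∈ maximalIdeal B := (mem_maximalIdeal y).2 hy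
    apply hn
    rw [hk, Nat.succ_eq_add_one, pow_succ]
    refine Ideal.mul_mem_mul ?_ hy'
    rw [hm, Ideal.span_singleton_pow]
    exact Ideal.mem_span_singleton_self _
  exact ⟨k, hy.unit, rfl⟩

/-- A local ring, Hausdorff for its maximal ideal `(ϖ)` with `ϖ` not nilpotent, is a domain. -/
theorem dvc_isDomain (ϖ : B) (hm : maximalIdeal B = Ideal.span {ϖ})
    [IsHausdorff (maximalIdeal B) B] (hϖ : ∀ n : ℕ, ϖ ^ n ≠ 0) : IsDomain B := by
  have : NoZeroDivisors B := ⟨by
    intro a b hab
    by_contra hcon
    push Not at hcon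
    obtain ⟨n, u, rfl⟩ := dvc_exists_pow_mul_unit ϖ hm hcon.1
    obtain ⟨m, v, rfl⟩ := dvc_exists_pow_mul_unit ϖ hm hcon.2
    have h1 : ϖ ^ (n + m) * ((u * v : Bˣ) : B) = 0 := by
      rw [← hab]; push_cast; ring
    exact hϖ (n + m) ((Units.mul_left_eq_zero _).1 h1)⟩
  exact NoZeroDivisors.to_isDomain B

/-- A local domain, Hausdorff for its maximal ideal `(ϖ)`, `ϖ ≠ 0`, is a discrete valuation
ring. -/
theorem dvc_isDiscreteValuationRing [IsDomain B] (ϖ : B)
    (hm : maximalIdeal B = Ideal.span {ϖ})
    [IsHausdorff (maximalIdeal B) B] (hϖ : ϖ ≠ 0) : IsDiscreteValuationRing B := by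
  apply IsDiscreteValuationRing.ofHasUnitMulPowIrreducibleFactorization
  refine ⟨ϖ, ?_, ?_⟩
  · have hprime : Prime ϖ := by
      rw [← Ideal.span_singleton_prime hϖ, ← hm]
      infer_instance
    exact hprime.irreducible
  · intro x hx
    obtain ⟨n, u, rfl⟩ := dvc_exists_pow_mul_unit ϖ hm hx
    exact ⟨n, u, rfl⟩

end General

section Completion

variable (R : Type*) [CommRing R] [IsDomain R] [IsDiscreteValuationRing R]

/-- the canonical map from a discrete valuation ring to its completion is injective. -/
theorem dvc_algebraMap_injective :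
    Function.Injective (algebraMap R (AdicCompletion (maximalIdeal R) R)) :=
  AdicCompletion.of_injective (maximalIdeal R) R

/-- the maximal ideal of the completion is generated by the image of a uniformizer. -/
theorem dvc_maximalIdeal_completion {ϖ : R} (hϖ : Irreducible ϖ) :
    maximalIdeal (AdicCompletion (maximalIdeal R) R) =
      Ideal.span {algebraMap R (AdicCompletion (maximalIdeal R) R) ϖ} := by
  rw [AdicCompletion.maximalIdeal_eq_map, hϖ.maximalIdeal_eq, Ideal.map_span,
    Set.image_singleton]

/-- the completion of a discrete valuation ring is a domain. -/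
theorem dvc_completion_isDomain : IsDomain (AdicCompletion (maximalIdeal R) R) := by
  obtain ⟨ϖ, hϖ⟩ := IsDiscreteValuationRing.exists_irreducible R
  refine dvc_isDomain _ (dvc_maximalIdeal_completion R hϖ) (fun n => ?_)
  rw [← map_pow]
  intro h0
  exact pow_ne_zero n hϖ.ne_zero (dvc_algebraMap_injective R (h0.trans (map_zero _).symm))

/-- the completion of a discrete valuation ring is a discrete valuation ring. -/
theorem dvc_completion_isDiscreteValuationRing
    [IsDomain (AdicCompletion (maximalIdeal R) R)] :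
    IsDiscreteValuationRing (AdicCompletion (maximalIdeal R) R) := by
  obtain ⟨ϖ, hϖ⟩ := IsDiscreteValuationRing.exists_irreducible R
  refine dvc_isDiscreteValuationRing _ (dvc_maximalIdeal_completion R hϖ) ?_
  intro h0
  exact hϖ.ne_zero (dvc_algebraMap_injective R (h0.trans (map_zero _).symm))

end Completion

section NumberField

open NumberField

variable (F : Type) [Field F] [NumberField F]

/-- there is a maximal ideal of `𝓞 F` containing the prime `p`. -/
theorem dvc_exists_maximal (p : ℕ) (hp : p.Prime) :
    ∃ P : Ideal (𝓞 F), P.IsMaximal ∧ ((p : ℕ) : 𝓞 F) ∈ P ∧ P ≠ ⊥ := by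
  haveI : Fact p.Prime := ⟨hp⟩
  have hprime : (Ideal.span {(p : ℤ)}).IsPrime :=
    (Ideal.span_singleton_prime (by exact_mod_cast hp.ne_zero)).2
      (Nat.prime_iff_prime_int.1 hp)
  haveI hmax : (Ideal.span {(p : ℤ)}).IsMaximal :=
    hprime.isMaximal (by
      rw [Ne, Ideal.span_singleton_eq_bot]; exact_mod_cast hp.ne_zero)
  obtain ⟨P, hPmax, hP⟩ := Ideal.exists_ideal_over_maximal_of_isIntegral (S := 𝓞 F)
    (Ideal.span {(p : ℤ)}) (by
      rw [(RingHom.injective_iff_ker_eq_bot _).1
        (FaithfulSMul.algebraMap_injective ℤ (𝓞 F))]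
      exact bot_le)
  have hpP : ((p : ℕ) : 𝓞 F) ∈ P := by
    have h1 : (p : ℤ) ∈ P.comap (algebraMap ℤ (𝓞 F)) := by
      rw [hP]; exact Ideal.mem_span_singleton_self _
    simpa using h1
  refine ⟨P, hPmax, hpP, ?_⟩
  rintro rfl
  have h0 : ((p : ℕ) : 𝓞 F) = 0 := by simpa using hpP
  exact hp.ne_zero (by exact_mod_cast h0)

/-- **E3 (DVRCOMPL).** -/
theorem dvrCompl : DvrComplStatement := by
  intro p hp F _ _
  obtain ⟨P, hPmax, hpP, hP0⟩ := dvc_exists_maximal F p hp
  haveI := hPmax
  haveI : P.IsPrime := hPmax.isPrime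
  letI R := Localization.AtPrime P
  haveI hRdvr : IsDiscreteValuationRing R :=
    IsLocalization.AtPrime.isDiscreteValuationRing_of_dedekind_domain (𝓞 F) hP0 R
  haveI hdom : IsDomain (AdicCompletion (maximalIdeal R) R) := dvc_completion_isDomain R
  haveI hdvr : IsDiscreteValuationRing (AdicCompletion (maximalIdeal R) R) :=
    dvc_completion_isDiscreteValuationRing R
  have hinjR : Function.Injective (algebraMap (𝓞 F) R) :=
    IsLocalization.injective R P.primeCompl_le_nonZeroDivisors
  have hinj : Function.Injective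
      ((algebraMap R (AdicCompletion (maximalIdeal R) R)).comp (algebraMap (𝓞 F) R)) :=
    (dvc_algebraMap_injective R).comp hinjR
  haveI hchar : CharZero (AdicCompletion (maximalIdeal R) R) :=
    charZero_of_injective_ringHom hinj
  haveI hfinP : Finite (𝓞 F ⧸ P) := Ideal.finiteQuotientOfFreeOfNeBot P hP0
  haveI hfinR : Finite (ResidueField R) :=
    Finite.of_equiv _ (IsLocalization.AtPrime.equivQuotMaximalIdeal P R).toEquiv
  haveI hfin : Finite (ResidueField (AdicCompletion (maximalIdeal R) R)) :=
    Finite.of_surjective _ (AdicCompletion.residueField_map_bijective R).2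
  refine ⟨AdicCompletion (maximalIdeal R) R, inferInstance, hdom, hdvr, inferInstance,
    hfin, hchar, ?_, _, hinj⟩
  have h1 : algebraMap (𝓞 F) R ((p : ℕ) : 𝓞 F) ∈ maximalIdeal R :=
    (IsLocalization.AtPrime.to_map_mem_maximal_iff R P _).2 hpP
  have h2 := Ideal.mem_map_of_mem (algebraMap R (AdicCompletion (maximalIdeal R) R)) h1
  rw [← AdicCompletion.maximalIdeal_eq_map] at h2
  simpa using h2

end NumberField

end Fermat.Agent.S31
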