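import Fermat.Agent.S31.Defs

/-!
# S31, A1 (DVREXT): an injective local homomorphism of discrete valuation rings is bounded

`dvrExt : DvrExtStatement`: there is `e` with `ι a ∈ 𝔪_B ^ (e * M) → a ∈ 𝔪_A ^ M`.
-/

set_option autoImplicit false

noncomputable section

namespace Fermat.Agent.S31

open IsDiscreteValuationRing

theorem dvx_mem_pow_iff {R : Type*} [CommRing R] [IsDomain R] [IsDiscreteValuationRing R]
    (n : ℕ) (x : R) : x ∈ IsLocalRing.maximalIdeal R ^ n ↔ (n : ℕ∞) ≤ addVal R x := by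
  obtain ⟨ϖ, hϖ⟩ := IsDiscreteValuationRing.exists_irreducible R
  rw [hϖ.maximalIdeal_eq, Ideal.span_singleton_pow, Ideal.mem_span_singleton,
    ← addVal_le_iff_dvd, addVal_pow, addVal_uniformizer hϖ, nsmul_one]

theorem dvx_addVal_unit {R : Type*} [CommRing R] [IsDomain R] [IsDiscreteValuationRing R]
    {x : R} (hx : IsUnit x) : addVal R x = 0 := by
  obtain ⟨u, rfl⟩ := hx
  exact addVal_eq_zero_of_unit u

/-- **A1 (DVREXT).** -/
theorem dvrExt : DvrExtStatement := by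
  intro A B _ _ _ _ _ _ ι hinj hloc
  obtain ⟨ϖ, hϖ⟩ := IsDiscreteValuationRing.exists_irreducible A
  have hιϖ0 : ι ϖ ≠ 0 := fun h => hϖ.ne_zero (hinj (by rw [h, map_zero]))
  have hιϖnu : ¬ IsUnit (ι ϖ) := fun h => hϖ.not_isUnit (hloc.map_nonunit ϖ h)
  -- `e := v_B (ι ϖ)`
  obtain ⟨e, he⟩ : ∃ e : ℕ, addVal B (ι ϖ) = e := by
    have hne : addVal B (ι ϖ) ≠ ⊤ := fun h => hιϖ0 (addVal_eq_top_iff.mp h)
    exact ⟨(addVal B (ι ϖ)).toNat, (ENat.natCast_toNat hne).symm⟩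
  have he1 : 1 ≤ e := by
    rcases Nat.eq_zero_or_pos e with h0 | h0
    · exfalso
      apply hιϖnu
      rw [h0] at he
      have h1 : addVal B (1 : B) = 0 := dvx_addVal_unit isUnit_one
      have hdvd : ι ϖ ∣ 1 := by
        rw [← addVal_le_iff_dvd, he, h1]
        rfl
      exact isUnit_of_dvd_one hdvd
    · exact h0
  refine ⟨e, fun M a ha => ?_⟩
  by_cases ha0 : a = 0
  · rw [ha0]; exact zero_mem _
  obtain ⟨k, u, rfl⟩ := IsDiscreteValuationRing.eq_unit_mul_pow_irreducible ha0 hϖ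
  rw [dvx_mem_pow_iff] at ha ⊢
  have hA : addVal A ((u : A) * ϖ ^ k) = k := by
    rw [addVal_mul, addVal_pow, addVal_uniformizer hϖ, dvx_addVal_unit u.isUnit, zero_add,
      nsmul_one]
  have hB : addVal B (ι ((u : A) * ϖ ^ k)) = ((e * k : ℕ) : ℕ∞) := by
    rw [map_mul, map_pow, addVal_mul, addVal_pow, he, dvx_addVal_unit (u.isUnit.map ι),
      zero_add, nsmul_eq_mul]
    push_cast
    ring
  rw [hA]
  rw [hB] at ha
  have h2 : e * M ≤ e * k := by exact_mod_cast ha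
  exact_mod_cast Nat.le_of_mul_le_mul_left h2 he1

end Fermat.Agent.S31
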