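import Fermat.Agent.S31.Defs

/-!
# S31 / E4 (ETALESEP)

A reduced commutative ring `𝕋`, finite and free over `ℤ`, has the separation property `SepAt p 𝕋`
at every prime `p`, given the three inputs CHARTRACE, TRACEFORM and DVRCOMPL (as hypotheses).

Author: helper81.  All auxiliary names carry the prefix `ets_`.
-/

set_option autoImplicit false

open Matrix

namespace Fermat.Agent.S31

/-- an integer whose image in a local ring `𝒪'` of residue characteristic `p` lies in the maximal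
ideal is divisible by `p`. -/
theorem ets_dvd_of_mem_maximalIdeal (p : ℕ) (hp : p.Prime) (𝒪' : Type) [CommRing 𝒪']
    [IsLocalRing 𝒪'] (_hp𝒪 : (p : 𝒪') ∈ IsLocalRing.maximalIdeal 𝒪') (t : ℤ)
    (ht : (t : 𝒪') ∈ IsLocalRing.maximalIdeal 𝒪') : (p : ℤ) ∣ t := by
  by_contra hnd
  have hpZ : Prime (p : ℤ) := Nat.prime_iff_prime_int.mp hp
  have hcop : IsCoprime (p : ℤ) t := (Prime.coprime_iff_not_dvd hpZ).mpr hnd
  obtain ⟨a, b, hab⟩ := hcop
  have h1 : ((a * (p : ℤ) + b * t : ℤ) : 𝒪') ∈ IsLocalRing.maximalIdeal 𝒪' := by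
    push_cast
    exact Ideal.add_mem _ (Ideal.mul_mem_left _ _ _hp𝒪) (Ideal.mul_mem_left _ _ ht)
  rw [hab, Int.cast_one] at h1
  exact (Ideal.ne_top_iff_one _).mp (IsLocalRing.maximalIdeal.isMaximal 𝒪').ne_top h1

/-- **INT-VAL lemma.**  In a discrete valuation ring `𝒪'` of characteristic zero and residue
characteristic `p` there is `e` such that an integer whose image lies in `𝔪 ^ (e * K)` is
divisible by `p ^ K`. -/
theorem ets_intVal (p : ℕ) (hp : p.Prime) (𝒪' : Type) [CommRing 𝒪'] [IsDomain 𝒪']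
    [IsDiscreteValuationRing 𝒪'] [CharZero 𝒪']
    (hp𝒪 : (p : 𝒪') ∈ IsLocalRing.maximalIdeal 𝒪') :
    ∃ e : ℕ, ∀ (K : ℕ) (t : ℤ),
      (t : 𝒪') ∈ IsLocalRing.maximalIdeal 𝒪' ^ (e * K) → (p : ℤ) ^ K ∣ t := by
  have hp0 : (p : 𝒪') ≠ 0 := Nat.cast_ne_zero.mpr hp.ne_zero
  obtain ⟨ϖ, hϖ⟩ := IsDiscreteValuationRing.exists_irreducible 𝒪'
  have hspan0 : Ideal.span {(p : 𝒪')} ≠ ⊥ := by
    simpa [Ideal.span_singleton_eq_bot] using hp0
  obtain ⟨e, he⟩ := IsDiscreteValuationRing.ideal_eq_span_pow_irreducible hspan0 hϖ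
  have hm : IsLocalRing.maximalIdeal 𝒪' = Ideal.span {ϖ} := hϖ.maximalIdeal_eq
  have hme : IsLocalRing.maximalIdeal 𝒪' ^ e = Ideal.span {(p : 𝒪')} := by
    rw [hm, Ideal.span_singleton_pow, he]
  have he0 : e ≠ 0 := by
    rintro rfl
    have h1 : (1 : 𝒪') ∈ Ideal.span {(p : 𝒪')} := by
      rw [← hme, pow_zero, Ideal.one_eq_top]; trivial
    have h2 : (1 : 𝒪') ∈ IsLocalRing.maximalIdeal 𝒪' := by
      rw [Ideal.mem_span_singleton] at h1
      exact Ideal.mem_of_dvd _ h1 hp𝒪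
    exact (Ideal.ne_top_iff_one _).mp (IsLocalRing.maximalIdeal.isMaximal 𝒪').ne_top h2
  refine ⟨e, ?_⟩
  intro K
  induction K with
  | zero => intro t _; simp
  | succ K ih =>
    intro t ht
    have hne : e * (K + 1) ≠ 0 := Nat.mul_ne_zero he0 (Nat.succ_ne_zero K)
    have ht1 : (t : 𝒪') ∈ IsLocalRing.maximalIdeal 𝒪' := Ideal.pow_le_self hne ht
    obtain ⟨t', rfl⟩ := ets_dvd_of_mem_maximalIdeal p hp 𝒪' hp𝒪 t ht1
    have hsplit : IsLocalRing.maximalIdeal 𝒪' ^ (e * (K + 1))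
        = IsLocalRing.maximalIdeal 𝒪' ^ (e * K) * Ideal.span {(p : 𝒪')} := by
      rw [mul_add, mul_one, pow_add, hme]
    rw [hsplit, Ideal.mem_mul_span_singleton] at ht
    obtain ⟨w, hw, hwt⟩ := ht
    have hcast : (((p : ℤ) * t' : ℤ) : 𝒪') = (t' : 𝒪') * (p : 𝒪') := by
      push_cast; ring
    rw [hcast] at hwt
    have hwt' : w = (t' : 𝒪') := mul_right_cancel₀ hp0 hwt
    rw [hwt'] at hw
    obtain ⟨u, rfl⟩ := ih t' hw
    exact ⟨u, by ring⟩

/-- cancelling a nonzero integer factor at the cost of a bounded loss of `p`-divisibility. -/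
theorem ets_cancel (p : ℕ) (hp : p.Prime) (D : ℤ) (hD : D ≠ 0) :
    ∃ δ : ℕ, ∀ (m : ℕ) (c : ℤ), (p : ℤ) ^ (m + δ) ∣ D * c → (p : ℤ) ^ m ∣ c := by
  have hpZ : Prime (p : ℤ) := Nat.prime_iff_prime_int.mp hp
  have hfin : FiniteMultiplicity (p : ℤ) D := by
    rw [Int.finiteMultiplicity_iff]
    refine ⟨?_, hD⟩
    simpa using hp.ne_one
  obtain ⟨D', hD', hnd⟩ := hfin.exists_eq_pow_mul_and_not_dvd
  refine ⟨multiplicity (p : ℤ) D, ?_⟩
  intro m c hdiv
  have hpδ : (p : ℤ) ^ multiplicity (p : ℤ) D ≠ 0 := pow_ne_zero _ hpZ.ne_zero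
  have h1 : (p : ℤ) ^ multiplicity (p : ℤ) D * (p : ℤ) ^ m
      ∣ (p : ℤ) ^ multiplicity (p : ℤ) D * (D' * c) := by
    have : (p : ℤ) ^ (m + multiplicity (p : ℤ) D)
        = (p : ℤ) ^ multiplicity (p : ℤ) D * (p : ℤ) ^ m := by ring
    rw [← this]
    have h2 : D * c = (p : ℤ) ^ multiplicity (p : ℤ) D * (D' * c) := by
      conv_lhs => rw [hD']
      ring
    rw [← h2]
    exact hdiv
  have h3 : (p : ℤ) ^ m ∣ D' * c := (mul_dvd_mul_iff_left hpδ).mp h1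
  exact hpZ.pow_dvd_of_dvd_mul_left m hnd h3

section TraceMatrix

variable {𝕋 : Type} [CommRing 𝕋] {κ : Type} [Fintype κ]

/-- the trace matrix applied to the coordinates of `y` gives the traces `Tr (b i * y)`. -/
theorem ets_traceMatrix_mulVec (b : Module.Basis κ ℤ 𝕋) (c : κ → ℤ) (i : κ) :
    (Algebra.traceMatrix ℤ b *ᵥ c) i = Algebra.trace ℤ 𝕋 (b i * ∑ k, c k • b k) := by
  rw [Matrix.mulVec, dotProduct, Finset.mul_sum, map_sum]
  refine Finset.sum_congr rfl ?_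
  intro k _
  rw [Algebra.traceMatrix_apply, Algebra.traceForm_apply, mul_smul_comm, map_smul, smul_eq_mul,
    mul_comm]

/-- nondegeneracy of the trace form gives a nonzero discriminant. -/
theorem ets_det_ne_zero [DecidableEq κ] (b : Module.Basis κ ℤ 𝕋)
    (hTF : ∀ x : 𝕋, (∀ y : 𝕋, Algebra.trace ℤ 𝕋 (x * y) = 0) → x = 0) :
    (Algebra.traceMatrix ℤ b).det ≠ 0 := by
  intro hdet
  obtain ⟨v, hv0, hv⟩ := Matrix.exists_mulVec_eq_zero_iff.mpr hdet
  apply hv0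
  have hx : (∑ k, v k • b k : 𝕋) = 0 := by
    apply hTF
    intro y
    rw [← b.sum_repr y, Finset.mul_sum, map_sum]
    refine Finset.sum_eq_zero ?_
    intro i _
    rw [mul_smul_comm, map_smul, mul_comm, ← ets_traceMatrix_mulVec, hv]
    simp
  have := b.repr_sum_self v
  rw [hx] at this
  rw [← this]
  simp

end TraceMatrix

/-- **E4 (ETALESEP).** -/
theorem etaleSep : EtaleSepStatement := by
  intro hCT hTF hDC p hp 𝕋 _ _ _ _
  classical
  obtain ⟨F, iF, iNF, s, lam, hlam⟩ := hCT 𝕋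
  obtain ⟨𝒪', i1, i2, i3, i4, i5, i6, hp𝒪, ι, _hι⟩ := hDC p hp F
  refine ⟨𝒪', i1, i2, i3, i4, i5, i6, hp𝒪, s, fun j => ι.comp (lam j), ?_⟩
  -- the basis and the discriminant
  let b := Module.Free.chooseBasis ℤ 𝕋
  have hD : (Algebra.traceMatrix ℤ b).det ≠ 0 := ets_det_ne_zero b (hTF 𝕋)
  obtain ⟨e, he⟩ := ets_intVal p hp 𝒪' hp𝒪
  obtain ⟨δ, hδ⟩ := ets_cancel p hp _ hD
  intro m
  refine ⟨e * (m + δ), ?_⟩
  intro y hy
  -- the traces `Tr (b i * y)` are divisible by `p ^ (m + δ)`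
  have htr : ∀ i, (p : ℤ) ^ (m + δ) ∣ Algebra.trace ℤ 𝕋 (b i * y) := by
    intro i
    apply he
    have h1 : ((Algebra.trace ℤ 𝕋 (b i * y) : ℤ) : 𝒪')
        = ∑ j, (ι.comp (lam j)) (b i) * (ι.comp (lam j)) y := by
      have h2 := congrArg ι (hlam (b i * y))
      rw [map_intCast, map_sum] at h2
      rw [h2]
      refine Finset.sum_congr rfl ?_
      intro j _
      simp [map_mul]
    rw [h1]
    exact Ideal.sum_mem _ fun j _ => Ideal.mul_mem_left _ _ (hy j)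
  -- coordinates
  set c : Module.Free.ChooseBasisIndex ℤ 𝕋 → ℤ := fun k => b.repr y k with hc
  have hyc : (∑ k, c k • b k : 𝕋) = y := b.sum_repr y
  have hGc : ∀ i, (Algebra.traceMatrix ℤ b *ᵥ c) i = Algebra.trace ℤ 𝕋 (b i * y) := by
    intro i
    rw [ets_traceMatrix_mulVec, hyc]
  have hadj : (Algebra.traceMatrix ℤ b).adjugate *ᵥ (Algebra.traceMatrix ℤ b *ᵥ c)
      = (Algebra.traceMatrix ℤ b).det • c := by
    rw [Matrix.mulVec_mulVec, Matrix.adjugate_mul, Matrix.smul_mulVec, Matrix.one_mulVec]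
  have hck : ∀ k, (p : ℤ) ^ m ∣ c k := by
    intro k
    apply hδ
    have h3 := congrFun hadj k
    rw [Pi.smul_apply, smul_eq_mul] at h3
    rw [← h3, Matrix.mulVec, dotProduct]
    refine Finset.dvd_sum ?_
    intro i _
    rw [hGc i]
    exact Dvd.dvd.mul_left (htr i) _
  choose d hd using hck
  refine ⟨∑ k, d k • b k, ?_⟩
  rw [← hyc, Finset.mul_sum]
  refine Finset.sum_congr rfl ?_
  intro k _
  rw [hd k, mul_smul]
  rw [← Int.cast_smul_eq_zsmul 𝕋 ((p : ℤ) ^ m), smul_eq_mul]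
  push_cast
  rfl

end Fermat.Agent.S31
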