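import Fermat.Agent.S31.Defs

/-!
# S31, task A3 (GATE-A): `HeckeGate` from the per-character gates and the separation property

Pure logic + compositum of finitely many number fields.
-/

set_option autoImplicit false

namespace Fermat.Agent.S31

/-- **A3 (GATE-A).**  GATE from PERCHAR and SEP. -/
theorem gateOfSep : GateOfSepStatement := by
  intro p _hp N _ S hCG hsep
  obtain ⟨𝒪', i1, i2, i3, i4, i5, i6, hp𝒪', s, χ, hχ⟩ := hsep
  intro q hq hqS Q hQ τ hτ m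
  obtain ⟨M, hM⟩ := hχ m
  have gta_key : ∀ j : Fin s, ∃ L : IntermediateField ℚ (AlgebraicClosure ℚ),
      FiniteDimensional ℚ L ∧
        ∀ (g f f' : GalQ) (n n' : ℕ) (ℓ ℓ' : ℕ)
          (hℓ : ℓ.Prime) (hℓN : ¬ ℓ ∣ N) (hℓS : ℓ ∉ (↑S : Set ℕ))
          (hℓ' : ℓ'.Prime) (hℓ'N : ¬ ℓ' ∣ N) (hℓ'S : ℓ' ∉ (↑S : Set ℕ))
          (P P' : ValuationSubring (AlgebraicClosure ℚ)),
          P.LiesOverPrime ℓ → P.IsFrobeniusAt f ℓ →
          P'.LiesOverPrime ℓ' → P'.IsFrobeniusAt f' ℓ' →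
          (∀ x ∈ L, g x = (f ^ n) x) → (∀ x ∈ L, (τ * g) x = (f' ^ n') x) →
          χ j (heckePow N S hℓ' hℓ'N hℓ'S n' - heckePow N S hℓ hℓN hℓS n)
            ∈ IsLocalRing.maximalIdeal 𝒪' ^ M :=
    fun j => hCG 𝒪' hp𝒪' (χ j) q hq hqS Q hQ τ hτ M
  choose L hLfd hL using gta_key
  refine ⟨⨆ j, L j, ?_, ?_⟩
  · have : ∀ j, FiniteDimensional ℚ (L j) := hLfd
    exact IntermediateField.finiteDimensional_iSup_of_finite
  · intro g f f' n n' ℓ ℓ' hℓ hℓN hℓS hℓ' hℓ'N hℓ'S P P' hP hPf hP' hP'f hg hτg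
    refine hM _ fun j => ?_
    have hle : L j ≤ ⨆ j, L j := le_iSup L j
    exact hL j g f f' n n' ℓ ℓ' hℓ hℓN hℓS hℓ' hℓ'N hℓ'S P P' hP hPf hP' hP'f
      (fun x hx => hg x (hle hx)) (fun x hx => hτg x (hle hx))

end Fermat.Agent.S31
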