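import Fermat.Agent.S31.Skeleton
import Fermat.Agent.S30.CycCharAdic

/-!
# P-GALREP, S31, step (2) of C2: the ring homomorphism `lam : B₀ → T`

Setting: `M` a `ℤ_[p]`-module with an action `Θ` of the polynomial ring in the Hecke operators
(in practice the `p`-adic Tate module of `J₀(N)`), satisfying the *key link* clause of
`TatePackageStatement`; `L` a lattice as in `HeckeKeyLattice N`; `T` a complete local ring with
`p ∈ 𝔪_T` and `π : heckeAlgebra N 2 S →+* T`.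

`lamAlg S Θ` is the `ℤ_[p]`-subalgebra of `End M` generated by the `Θ (X ℓ)`, `ℓ ∉ S`.

Main result: `exists_lam` — there is a ring homomorphism `lam : lamAlg S Θ →+* T` with
`lam (Θ (X ℓ)) = π (T_ℓ)` for all primes `ℓ ∉ S` and `lam (c • 1) = padicLift c`.
-/

set_option autoImplicit false

open MvPolynomial

noncomputable section

namespace Fermat.Agent.S31

namespace Lam

/-! ### Step A: a Noetherian bound -/

/-- For finitely generated `L`, there is a uniform exponent `c` such that `p ^ k • B ∈ X` (for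
some `k`) implies `p ^ c • B ∈ X`, for `B ∈ L`. -/
theorem exists_pow_smul_mem {E : Type*} [AddCommGroup E] (X L : Submodule ℤ E) (hL : L.FG)
    (p : ℕ) :
    ∃ c : ℕ, ∀ (k : ℕ) (B : E), B ∈ L → ((p : ℤ) ^ k) • B ∈ X → ((p : ℤ) ^ c) • B ∈ X := by
  have hnoeth : IsNoetherian ℤ L := isNoetherian_of_fg_of_noetherian L hL
  let Y : ℕ → Submodule ℤ L := fun j =>
    (X.comap L.subtype).comap (LinearMap.lsmul ℤ L ((p : ℤ) ^ j))
  have hYmem : ∀ (j : ℕ) (b : L), b ∈ Y j ↔ ((p : ℤ) ^ j) • (b : E) ∈ X := by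
    intro j b
    simp only [Y, Submodule.mem_comap, LinearMap.lsmul_apply, Submodule.subtype_apply,
      Submodule.coe_smul]
  have hmono : Monotone Y := by
    refine monotone_nat_of_le_succ fun j b hb => ?_
    rw [hYmem] at hb ⊢
    rw [pow_succ', mul_smul]
    exact X.smul_mem _ hb
  obtain ⟨c, hc⟩ := monotone_stabilizes_iff_noetherian.mpr hnoeth ⟨Y, hmono⟩
  refine ⟨c, fun k B hB hk => ?_⟩
  rcases le_total c k with hck | hkc
  · have h1 : (⟨B, hB⟩ : L) ∈ Y k := (hYmem k _).mpr hk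
    have h2 : Y c = Y k := hc k hck
    rw [← h2] at h1
    exact (hYmem c _).mp h1
  · obtain ⟨j, rfl⟩ := Nat.exists_eq_add_of_le hkc
    rw [pow_add, mul_comm, mul_smul]
    exact X.smul_mem _ hk

/-! ### Step B: integral approximation of `p`-adic polynomials -/

/-- Every polynomial with `p`-adic integer coefficients is congruent modulo `p ^ k` to the image
of a polynomial with integer coefficients. -/
theorem exists_int_approx {p : ℕ} [Fact p.Prime] {σ : Type*} (P : MvPolynomial σ ℤ_[p])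
    (k : ℕ) :
    ∃ (P₀ : MvPolynomial σ ℤ) (Q : MvPolynomial σ ℤ_[p]),
      MvPolynomial.map (Int.castRingHom ℤ_[p]) P₀ = P + C ((p : ℤ_[p]) ^ k) * Q := by
  induction P using MvPolynomial.induction_on with
  | C a =>
    obtain ⟨q, hq⟩ := Ideal.mem_span_singleton'.mp (PadicInt.appr_spec k a)
    refine ⟨C ((a.appr k : ℕ) : ℤ), C (-q), ?_⟩
    rw [MvPolynomial.map_C, ← C_mul, ← C_add]
    congr 1
    have : ((a.appr k : ℕ) : ℤ_[p]) = a - q * (p : ℤ_[p]) ^ k := by rw [hq]; ring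
    simp only [eq_intCast, Int.cast_natCast, this]
    ring
  | add P P' hP hP' =>
    obtain ⟨P₀, Q, h⟩ := hP
    obtain ⟨P₀', Q', h'⟩ := hP'
    refine ⟨P₀ + P₀', Q + Q', ?_⟩
    rw [map_add, h, h']
    ring
  | mul_X P i hP =>
    obtain ⟨P₀, Q, h⟩ := hP
    refine ⟨P₀ * X i, Q * X i, ?_⟩
    rw [map_mul, h, MvPolynomial.map_X]
    ring

/-! ### The commutative algebra generated by the Hecke action on `M` -/

section Setup

variable {p : ℕ} [Fact p.Prime] {M : Type} [AddCommGroup M] [Module ℤ_[p] M]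

/-- The `ℤ_[p]`-subalgebra of `End M` generated by the image of `Θ`. -/
def bTheta (Θ : MvPolynomial Nat.Primes ℤ →+* Module.End ℤ_[p] M) :
    Subalgebra ℤ_[p] (Module.End ℤ_[p] M) :=
  Algebra.adjoin ℤ_[p] (Set.range Θ)

instance bTheta.instIsMulCommutative (Θ : MvPolynomial Nat.Primes ℤ →+* Module.End ℤ_[p] M) :
    IsMulCommutative (bTheta Θ) :=
  Algebra.isMulCommutative_adjoin ℤ_[p] (by
    rintro _ ⟨a, rfl⟩ _ ⟨b, rfl⟩
    rw [← map_mul, ← map_mul, mul_comm])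

open scoped IsMulCommutative in
instance bTheta.instCommRing (Θ : MvPolynomial Nat.Primes ℤ →+* Module.End ℤ_[p] M) :
    CommRing (bTheta Θ) := inferInstance

/-- The index type: the primes outside `S`. -/
abbrev Idx (S : Finset ℕ) : Type := {ℓ : Nat.Primes // (ℓ : ℕ) ∉ S}

/-- The generators `Θ (X ℓ)`, `ℓ ∉ S`, as elements of `bTheta Θ`. -/
def genM (S : Finset ℕ) (Θ : MvPolynomial Nat.Primes ℤ →+* Module.End ℤ_[p] M) (i : Idx S) :
    bTheta Θ :=
  ⟨Θ (X i.1), Algebra.subset_adjoin (Set.mem_range_self _)⟩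

/-- Evaluation of `p`-adic polynomials in the Hecke operators on `M`. -/
def evM (S : Finset ℕ) (Θ : MvPolynomial Nat.Primes ℤ →+* Module.End ℤ_[p] M) :
    MvPolynomial (Idx S) ℤ_[p] →ₐ[ℤ_[p]] bTheta Θ :=
  MvPolynomial.aeval (genM S Θ)

/-- Evaluation with values in `End M`. -/
def evEnd (S : Finset ℕ) (Θ : MvPolynomial Nat.Primes ℤ →+* Module.End ℤ_[p] M) :
    MvPolynomial (Idx S) ℤ_[p] →+* Module.End ℤ_[p] M :=
  ((bTheta Θ).val : bTheta Θ →+* Module.End ℤ_[p] M).comp (evM S Θ : _ →+* bTheta Θ)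

theorem evEnd_X (S : Finset ℕ) (Θ : MvPolynomial Nat.Primes ℤ →+* Module.End ℤ_[p] M)
    (i : Idx S) : evEnd S Θ (X i) = Θ (X i.1) := by
  simp [evEnd, evM, genM]

theorem evEnd_C (S : Finset ℕ) (Θ : MvPolynomial Nat.Primes ℤ →+* Module.End ℤ_[p] M)
    (c : ℤ_[p]) : evEnd S Θ (C c) = algebraMap ℤ_[p] (Module.End ℤ_[p] M) c := by
  simp [evEnd, evM]

/-- On integer polynomials, `evEnd` is `Θ`. -/
theorem evEnd_map (S : Finset ℕ) (Θ : MvPolynomial Nat.Primes ℤ →+* Module.End ℤ_[p] M)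
    (P₀ : MvPolynomial (Idx S) ℤ) :
    evEnd S Θ (MvPolynomial.map (Int.castRingHom ℤ_[p]) P₀) =
      Θ (MvPolynomial.rename (Subtype.val : Idx S → Nat.Primes) P₀) := by
  have h : (evEnd S Θ).comp (MvPolynomial.map (Int.castRingHom ℤ_[p])) =
      Θ.comp ((MvPolynomial.rename (Subtype.val : Idx S → Nat.Primes) :
        MvPolynomial (Idx S) ℤ →ₐ[ℤ] MvPolynomial Nat.Primes ℤ) :
          MvPolynomial (Idx S) ℤ →+* MvPolynomial Nat.Primes ℤ) := by
    apply MvPolynomial.ringHom_ext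
    · intro r
      simp
    · intro i
      simp [evEnd_X]
  exact congrArg (fun f => f P₀) h

/-- The subalgebra `B₀` of `End M` generated over `ℤ_[p]` by the `Θ (X ℓ)`, `ℓ ∉ S`. -/
def lamAlg (S : Finset ℕ) (Θ : MvPolynomial Nat.Primes ℤ →+* Module.End ℤ_[p] M) :
    Subalgebra ℤ_[p] (Module.End ℤ_[p] M) :=
  Algebra.adjoin ℤ_[p] {x | ∃ ℓ : Nat.Primes, (ℓ : ℕ) ∉ S ∧ x = Θ (X ℓ)}

theorem gen_mem_lamAlg (S : Finset ℕ) (Θ : MvPolynomial Nat.Primes ℤ →+* Module.End ℤ_[p] M)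
    (ℓ : Nat.Primes) (hℓ : (ℓ : ℕ) ∉ S) : Θ (X ℓ) ∈ lamAlg S Θ :=
  Algebra.subset_adjoin ⟨ℓ, hℓ, rfl⟩

theorem evEnd_mem_lamAlg (S : Finset ℕ) (Θ : MvPolynomial Nat.Primes ℤ →+* Module.End ℤ_[p] M)
    (P : MvPolynomial (Idx S) ℤ_[p]) : evEnd S Θ P ∈ lamAlg S Θ := by
  induction P using MvPolynomial.induction_on with
  | C a =>
    rw [evEnd_C]
    exact Subalgebra.algebraMap_mem _ a
  | add P P' hP hP' =>
    rw [map_add]
    exact Subalgebra.add_mem _ hP hP'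
  | mul_X P i hP =>
    rw [map_mul, evEnd_X]
    exact Subalgebra.mul_mem _ hP (gen_mem_lamAlg S Θ i.1 i.2)

theorem exists_evEnd_eq (S : Finset ℕ) (Θ : MvPolynomial Nat.Primes ℤ →+* Module.End ℤ_[p] M)
    {b : Module.End ℤ_[p] M} (hb : b ∈ lamAlg S Θ) :
    ∃ P : MvPolynomial (Idx S) ℤ_[p], evEnd S Θ P = b := by
  induction hb using Algebra.adjoin_induction with
  | mem x hx =>
    obtain ⟨ℓ, hℓ, rfl⟩ := hx
    exact ⟨X ⟨ℓ, hℓ⟩, evEnd_X S Θ ⟨ℓ, hℓ⟩⟩
  | algebraMap r => exact ⟨C r, evEnd_C S Θ r⟩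
  | add x y _ _ hx hy =>
    obtain ⟨P, rfl⟩ := hx
    obtain ⟨Q, rfl⟩ := hy
    exact ⟨P + Q, map_add _ _ _⟩
  | mul x y _ _ hx hy =>
    obtain ⟨P, rfl⟩ := hx
    obtain ⟨Q, rfl⟩ := hy
    exact ⟨P * Q, map_mul _ _ _⟩

/-- `evEnd` with codomain restricted to `lamAlg`. -/
def evLam (S : Finset ℕ) (Θ : MvPolynomial Nat.Primes ℤ →+* Module.End ℤ_[p] M) :
    MvPolynomial (Idx S) ℤ_[p] →+* lamAlg S Θ :=
  (evEnd S Θ).codRestrict (lamAlg S Θ) (evEnd_mem_lamAlg S Θ)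

theorem evLam_surjective (S : Finset ℕ)
    (Θ : MvPolynomial Nat.Primes ℤ →+* Module.End ℤ_[p] M) :
    Function.Surjective (evLam S Θ) := by
  rintro ⟨b, hb⟩
  obtain ⟨P, hP⟩ := exists_evEnd_eq S Θ hb
  exact ⟨P, Subtype.ext hP⟩

end Setup

/-! ### The target side -/

section Main

variable {p : ℕ} [Fact p.Prime] {N : ℕ} [NeZero N] {S : Finset ℕ}
  {T : Type} [CommRing T] [IsLocalRing T] [IsAdicComplete (IsLocalRing.maximalIdeal T) T]

omit [NeZero N] in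
/-- Primes outside `S` do not divide `N`. -/
theorem not_dvd_of_idx (hNS : ∀ q : ℕ, q.Prime → q ∣ N → q ∈ S) (i : Idx S) :
    ¬ ((i.1 : ℕ) ∣ N) := fun h => i.2 (hNS _ i.1.2 h)

/-- The Hecke operators `T_ℓ`, `ℓ ∉ S`, in the Hecke algebra away from `S`. -/
def tS (hNS : ∀ q : ℕ, q.Prime → q ∣ N → q ∈ S) (i : Idx S) :
    CuspForm.heckeAlgebra N 2 (↑S : Set ℕ) :=
  CuspForm.heckeAlgebra.T i.1.2 (not_dvd_of_idx hNS i) (by exact_mod_cast i.2)

/-- Evaluation of `p`-adic polynomials in the Hecke operators in `T`. -/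
def evT (hNS : ∀ q : ℕ, q.Prime → q ∣ N → q ∈ S)
    (hpT : (p : T) ∈ IsLocalRing.maximalIdeal T)
    (π : CuspForm.heckeAlgebra N 2 (↑S : Set ℕ) →+* T) : MvPolynomial (Idx S) ℤ_[p] →+* T :=
  MvPolynomial.eval₂Hom (Fermat.Agent.S30.CycCharAdic.padicLift p T hpT)
    (fun i => π (tS hNS i))

/-- On integer polynomials, `evT` is `π` of the evaluation in the Hecke algebra. -/
theorem evT_map (hNS : ∀ q : ℕ, q.Prime → q ∣ N → q ∈ S)
    (hpT : (p : T) ∈ IsLocalRing.maximalIdeal T)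
    (π : CuspForm.heckeAlgebra N 2 (↑S : Set ℕ) →+* T) (P₀ : MvPolynomial (Idx S) ℤ) :
    evT hNS hpT π (MvPolynomial.map (Int.castRingHom ℤ_[p]) P₀) =
      π (MvPolynomial.aeval (R := ℤ) (tS hNS) P₀) := by
  have h : (evT hNS hpT π).comp (MvPolynomial.map (Int.castRingHom ℤ_[p])) =
      π.comp ((MvPolynomial.aeval (R := ℤ) (tS hNS) :
        MvPolynomial (Idx S) ℤ →ₐ[ℤ] CuspForm.heckeAlgebra N 2 (↑S : Set ℕ)) :
          MvPolynomial (Idx S) ℤ →+* CuspForm.heckeAlgebra N 2 (↑S : Set ℕ)) := by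
    apply MvPolynomial.ringHom_ext
    · intro r
      simp [evT]
    · intro i
      simp [evT]
  exact congrArg (fun f => f P₀) h

/-- Comparison of the evaluation in the full Hecke algebra with the evaluation in the Hecke
algebra away from `S`, as endomorphisms of the space of cusp forms. -/
theorem aeval_heckeTAll_rename (hNS : ∀ q : ℕ, q.Prime → q ∣ N → q ∈ S)
    (P₀ : MvPolynomial (Idx S) ℤ) :
    ((MvPolynomial.aeval (R := ℤ) (Fermat.Agent.S30.heckeTAll N)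
        (MvPolynomial.rename (Subtype.val : Idx S → Nat.Primes) P₀) :
          CuspForm.heckeAlgebra N 2 (∅ : Set ℕ)) :
        Module.End ℂ (CuspForm (CongruenceSubgroup.Gamma0 N) 2)) =
      ((MvPolynomial.aeval (R := ℤ) (tS hNS) P₀ : CuspForm.heckeAlgebra N 2 (↑S : Set ℕ)) :
        Module.End ℂ (CuspForm (CongruenceSubgroup.Gamma0 N) 2)) := by
  have h : ((CuspForm.heckeAlgebra N 2 (∅ : Set ℕ)).val.toRingHom).comp
      (((MvPolynomial.aeval (R := ℤ) (Fermat.Agent.S30.heckeTAll N) :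
          MvPolynomial Nat.Primes ℤ →ₐ[ℤ] CuspForm.heckeAlgebra N 2 (∅ : Set ℕ)).toRingHom).comp
        ((MvPolynomial.rename (Subtype.val : Idx S → Nat.Primes) :
          MvPolynomial (Idx S) ℤ →ₐ[ℤ] MvPolynomial Nat.Primes ℤ).toRingHom)) =
      ((CuspForm.heckeAlgebra N 2 (↑S : Set ℕ)).val.toRingHom).comp
      ((MvPolynomial.aeval (R := ℤ) (tS hNS) :
        MvPolynomial (Idx S) ℤ →ₐ[ℤ] CuspForm.heckeAlgebra N 2 (↑S : Set ℕ)).toRingHom) := by
    apply MvPolynomial.ringHom_ext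
    · intro r
      simp
    · intro i
      simp [Fermat.Agent.S30.heckeTAll, tS, not_dvd_of_idx hNS i, CuspForm.heckeAlgebra.T]
  exact congrArg (fun f => f P₀) h

/-- The key-link clause of `TatePackageStatement`. -/
def KeyLink (N p : ℕ) [NeZero N] [Fact p.Prime] {M : Type} [AddCommGroup M] [Module ℤ_[p] M]
    (Θ : MvPolynomial Nat.Primes ℤ →+* Module.End ℤ_[p] M) : Prop :=
  ∀ (P : MvPolynomial Nat.Primes ℤ) (k : ℕ),
    (∀ v : M, ∃ w : M, Θ P v = ((p : ℤ_[p]) ^ k) • w) →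
    ∃ m : ℕ, letI := ModularCurve.heckeModuleBar N
      ∀ x : ModularCurve.JZero N, p ^ (k + m) • x = 0 →
        (MvPolynomial.C ((p : ℤ) ^ m) * P) • x = 0

variable {M : Type} [AddCommGroup M] [Module ℤ_[p] M]

/-- **Kernel containment.**  A `p`-adic polynomial in the Hecke operators `T_ℓ`, `ℓ ∉ S`, which
acts as zero on `M` evaluates to zero in `T`. -/
theorem evT_eq_zero_of_evEnd_eq_zero (hpS : p ∈ S)
    (hNS : ∀ q : ℕ, q.Prime → q ∣ N → q ∈ S)
    (hpT : (p : T) ∈ IsLocalRing.maximalIdeal T)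
    (π : CuspForm.heckeAlgebra N 2 (↑S : Set ℕ) →+* T)
    (Θ : MvPolynomial Nat.Primes ℤ →+* Module.End ℤ_[p] M) (hkey : KeyLink N p Θ)
    (hKL : HeckeKeyLattice N)
    (P : MvPolynomial (Idx S) ℤ_[p]) (hP : evEnd S Θ P = 0) : evT hNS hpT π P = 0 := by
  obtain ⟨L, hLfg, hL⟩ := hKL
  obtain ⟨c, hc⟩ := exists_pow_smul_mem
    (Subalgebra.toSubmodule (CuspForm.heckeAlgebra N 2 (↑S : Set ℕ)))
    (Subalgebra.toSubmodule L) hLfg p
  have hmem : ∀ n : ℕ, evT hNS hpT π P ∈ IsLocalRing.maximalIdeal T ^ n := by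
    intro n
    obtain ⟨P₀, Q, hPQ⟩ := exists_int_approx P (n + c)
    have h1 : ∀ v : M, ∃ w : M,
        Θ (MvPolynomial.rename (Subtype.val : Idx S → Nat.Primes) P₀) v =
          ((p : ℤ_[p]) ^ (n + c)) • w := by
      intro v
      refine ⟨evEnd S Θ Q v, ?_⟩
      rw [← evEnd_map, hPQ, map_add, hP, zero_add, map_mul, evEnd_C, Module.End.mul_apply,
        Module.algebraMap_end_apply]
    obtain ⟨m, hm⟩ := hkey _ _ h1
    have hvars : ∀ ℓ : Nat.Primes, ℓ ∈ (C ((p : ℤ) ^ m) *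
        MvPolynomial.rename (Subtype.val : Idx S → Nat.Primes) P₀).vars →
        ¬ ((ℓ : ℕ) ∣ N * p ^ (n + c + m)) := by
      classical
      intro ℓ hℓ
      have h2 := MvPolynomial.vars_mul _ _ hℓ
      rw [MvPolynomial.vars_C, Finset.empty_union] at h2
      have h3 := MvPolynomial.vars_rename _ _ h2
      obtain ⟨i, -, rfl⟩ := Finset.mem_image.mp h3
      intro hdvd
      rcases (Nat.Prime.dvd_mul i.1.2).mp hdvd with h4 | h4
      · exact not_dvd_of_idx hNS i h4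
      · have h5 := (Nat.prime_dvd_prime_iff_eq i.1.2 (Fact.out : p.Prime)).mp
          (i.1.2.dvd_of_dvd_pow h4)
        exact i.2 (h5 ▸ hpS)
    obtain ⟨B, hBL, hB⟩ := hL (p ^ (n + c + m)) _ hvars hm
    -- cancel `p ^ m`
    have hB2 : ((MvPolynomial.aeval (R := ℤ) (tS hNS) P₀ :
          CuspForm.heckeAlgebra N 2 (↑S : Set ℕ)) :
        Module.End ℂ (CuspForm (CongruenceSubgroup.Gamma0 N) 2)) = ((p : ℤ) ^ (n + c)) • B := by
      rw [← aeval_heckeTAll_rename hNS P₀]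
      have hpm : ((p : ℂ) ^ m) ≠ 0 := pow_ne_zero _ (Nat.cast_ne_zero.mpr (Fact.out : p.Prime).ne_zero)
      apply smul_right_injective _ hpm
      simp only
      rw [map_mul, MvPolynomial.aeval_C] at hB
      have h6 : ((p : ℂ) ^ m) • ((MvPolynomial.aeval (R := ℤ) (Fermat.Agent.S30.heckeTAll N)
          (MvPolynomial.rename (Subtype.val : Idx S → Nat.Primes) P₀) :
            CuspForm.heckeAlgebra N 2 (∅ : Set ℕ)) :
          Module.End ℂ (CuspForm (CongruenceSubgroup.Gamma0 N) 2)) =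
          ((algebraMap ℤ (CuspForm.heckeAlgebra N 2 (∅ : Set ℕ)) ((p : ℤ) ^ m) *
            MvPolynomial.aeval (R := ℤ) (Fermat.Agent.S30.heckeTAll N)
              (MvPolynomial.rename (Subtype.val : Idx S → Nat.Primes) P₀) :
            CuspForm.heckeAlgebra N 2 (∅ : Set ℕ)) :
          Module.End ℂ (CuspForm (CongruenceSubgroup.Gamma0 N) 2)) := by
        rw [Subalgebra.coe_mul, Subalgebra.coe_algebraMap, eq_intCast, ← zsmul_eq_mul,
          ← Int.cast_smul_eq_zsmul ℂ]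
        push_cast
        rfl
      rw [h6, hB]
      rw [← Int.cast_smul_eq_zsmul ℂ, smul_smul]
      congr 1
      push_cast
      ring
    have hX : ((p : ℤ) ^ (n + c)) • B ∈
        Subalgebra.toSubmodule (CuspForm.heckeAlgebra N 2 (↑S : Set ℕ)) := by
      rw [← hB2]
      exact (MvPolynomial.aeval (R := ℤ) (tS hNS) P₀).2
    have hX2 := hc (n + c) B hBL hX
    have hy : MvPolynomial.aeval (R := ℤ) (tS hNS) P₀ =
        ((p : ℤ) ^ n) • (⟨((p : ℤ) ^ c) • B, hX2⟩ : CuspForm.heckeAlgebra N 2 (↑S : Set ℕ)) := by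
      apply Subtype.ext
      rw [hB2]
      change _ = ((p : ℤ) ^ n) • (((p : ℤ) ^ c) • B)
      rw [smul_smul, pow_add]
    have hpn : ∀ j : ℕ, n ≤ j → ∀ t : T, ((p : T) ^ j) * t ∈ IsLocalRing.maximalIdeal T ^ n :=
      fun j hj t => Ideal.mul_mem_right _ _ (Ideal.pow_le_pow_right hj (Ideal.pow_mem_pow hpT j))
    have hsplit : evT hNS hpT π P = evT hNS hpT π (MvPolynomial.map (Int.castRingHom ℤ_[p]) P₀)
        - evT hNS hpT π (C ((p : ℤ_[p]) ^ (n + c)) * Q) := by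
      rw [hPQ, map_add]
      ring
    rw [hsplit]
    refine Ideal.sub_mem _ ?_ ?_
    · rw [evT_map, hy, zsmul_eq_mul, map_mul, map_intCast]
      push_cast
      exact hpn n le_rfl _
    · rw [map_mul]
      have : evT hNS hpT π (C ((p : ℤ_[p]) ^ (n + c))) = (p : T) ^ (n + c) := by
        simp [evT]
      rw [this]
      exact hpn (n + c) (Nat.le_add_right n c) _
  have hH : IsHausdorff (IsLocalRing.maximalIdeal T) T := inferInstance
  apply hH.haus
  intro n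
  rw [SModEq.zero, smul_eq_mul, Ideal.mul_top]
  exact hmem n

/-- **Step (2) of C2.**  The ring homomorphism `lam : B₀ → T` sending `Θ (X ℓ)` to `π (T_ℓ)` for
all primes `ℓ ∉ S`, and compatible with the canonical map `ℤ_[p] → T`. -/
theorem exists_lam (hpS : p ∈ S) (hNS : ∀ q : ℕ, q.Prime → q ∣ N → q ∈ S)
    (hpT : (p : T) ∈ IsLocalRing.maximalIdeal T)
    (π : CuspForm.heckeAlgebra N 2 (↑S : Set ℕ) →+* T)
    (Θ : MvPolynomial Nat.Primes ℤ →+* Module.End ℤ_[p] M) (hkey : KeyLink N p Θ)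
    (hKL : HeckeKeyLattice N) :
    ∃ lam : lamAlg S Θ →+* T,
      (∀ (ℓ : ℕ) (hℓ : ℓ.Prime) (hℓN : ¬ ℓ ∣ N) (hℓS : ℓ ∉ (↑S : Set ℕ))
        (hmem : Θ (X ⟨ℓ, hℓ⟩) ∈ lamAlg S Θ),
        lam ⟨Θ (X ⟨ℓ, hℓ⟩), hmem⟩ = π (CuspForm.heckeAlgebra.T hℓ hℓN hℓS)) ∧
      (∀ c : ℤ_[p], lam (algebraMap ℤ_[p] (lamAlg S Θ) c) =
        Fermat.Agent.S30.CycCharAdic.padicLift p T hpT c) ∧
      (∀ P : MvPolynomial (Idx S) ℤ_[p], lam (evLam S Θ P) = evT hNS hpT π P) := by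
  have hker : RingHom.ker (evLam S Θ) ≤ RingHom.ker (evT hNS hpT π) := by
    intro P hP
    rw [RingHom.mem_ker] at hP ⊢
    have h0 : evEnd S Θ P = 0 := congrArg Subtype.val hP
    exact evT_eq_zero_of_evEnd_eq_zero hpS hNS hpT π Θ hkey hKL P h0
  let lam : lamAlg S Θ →+* T :=
    RingHom.liftOfRightInverse (evLam S Θ) (Function.surjInv (evLam_surjective S Θ))
      (Function.rightInverse_surjInv (evLam_surjective S Θ)) ⟨evT hNS hpT π, hker⟩
  have hlam : ∀ P : MvPolynomial (Idx S) ℤ_[p], lam (evLam S Θ P) = evT hNS hpT π P :=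
    fun P => RingHom.liftOfRightInverse_comp_apply _ _ _ ⟨evT hNS hpT π, hker⟩ P
  refine ⟨lam, ?_, ?_, hlam⟩
  · intro ℓ hℓ hℓN hℓS hmem
    have hi : ((⟨ℓ, hℓ⟩ : Nat.Primes) : ℕ) ∉ S := by exact_mod_cast hℓS
    have h1 : (⟨Θ (X ⟨ℓ, hℓ⟩), hmem⟩ : lamAlg S Θ) = evLam S Θ (X ⟨⟨ℓ, hℓ⟩, hi⟩) :=
      Subtype.ext (evEnd_X S Θ ⟨⟨ℓ, hℓ⟩, hi⟩).symm
    rw [h1, hlam]
    simp [evT, tS]
  · intro c
    have h1 : algebraMap ℤ_[p] (lamAlg S Θ) c = evLam S Θ (C c) :=
      Subtype.ext (evEnd_C S Θ c).symm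
    rw [h1, hlam]
    simp [evT]

end Main

end Lam

end Fermat.Agent.S31

end
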