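import Fermat.Agent.S31.Defs

/-!
# S31, task A2 (PERCHAR): the per-character congruence from S30

`perChar : PerCharStatement`: every character `χ` of the Hecke algebra with values in a complete
discrete valuation ring satisfies `CharGate`, using the Galois representation attached to `χ`
(S30), which is unramified at `q ∉ S`, the approximation of traces (APPROX) and the boundedness
of extensions of discrete valuation rings (DVREXT).
-/

set_option autoImplicit false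

open Polynomial

namespace Fermat.Agent.S31

/-- `powTr` commutes with ring homomorphisms. -/
lemma pch_map_powTr {R R' : Type*} [CommRing R] [CommRing R'] (φ : R →+* R') (b d : R) :
    ∀ n : ℕ, φ (powTr b d n) = powTr (φ b) (φ d) n
  | 0 => by simp only [powTr]; exact map_ofNat φ 2
  | 1 => by simp [powTr]
  | (n + 2) => by
      rw [powTr, powTr, map_sub, map_mul, map_mul, pch_map_powTr φ b d (n + 1),
        pch_map_powTr φ b d n]

/-- the image of `heckePow` under a character followed by a ring homomorphism -/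
lemma pch_map_heckePow {N : ℕ} [NeZero N] {S : Finset ℕ} {R : Type*} [CommRing R]
    (φ : HeckeAlg N S →+* R) {ℓ : ℕ} (hℓ : ℓ.Prime) (hℓN : ¬ ℓ ∣ N)
    (hℓS : ℓ ∉ (↑S : Set ℕ)) (n : ℕ) :
    φ (heckePow N S hℓ hℓN hℓS n) =
      powTr (φ (CuspForm.heckeAlgebra.T hℓ hℓN hℓS)) ((ℓ : ℕ) : R) n := by
  unfold heckePow
  rw [pch_map_powTr, map_natCast]

/-- the trace of `ρ (τ g)` when `ρ τ = 1` -/
lemma pch_trace_mul_of_eq_one {A : Type} [CommRing A] [IsLocalRing A] (ρ : GaloisRepAdic A)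
    {τ : GalQ} (hτ : ρ.ρ τ = 1) (g : GalQ) : ρ.trace (τ * g) = ρ.trace g := by
  unfold GaloisRepAdic.trace
  rw [map_mul, hτ, one_mul]

/-- **A2 (PERCHAR).** -/
theorem perChar : PerCharStatement := by
  intro hS30 hApprox hDvr p hp N _ S hpS hNS 𝒪' _ _ _ _ _ _ hp𝒪' χ
  have : Fact p.Prime := ⟨hp⟩
  obtain ⟨𝒪'', i1, i2, i3, i4, i5, i6, i7, i8, i9, hinj, ρ, hchar, hunr⟩ :=
    hS30 p N S hpS hNS 𝒪' hp𝒪' χ
  obtain ⟨e, he⟩ := hDvr 𝒪' 𝒪'' (algebraMap 𝒪' 𝒪'') hinj i9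
  intro q hq hqS Q hQ τ hτ M
  -- `ρ` is unramified at `q`
  have hqN : ¬ q ∣ N := fun h => hqS (hNS q hq h)
  have hqp : q ≠ p := fun h => hqS (h ▸ hpS)
  have hρτ : ρ.ρ τ = 1 := hunr q hq hqN hqp Q hQ τ hτ
  obtain ⟨L, hL, hLtr⟩ := hApprox 𝒪'' ρ (e * M)
  refine ⟨L, hL, ?_⟩
  intro g f f' n n' ℓ ℓ' hℓ hℓN hℓS hℓ' hℓ'N hℓ'S P P' hP hf hP' hf' hg hτg
  have h1 := hLtr g f n _ _ (hchar ℓ hℓ hℓN hℓS P hP f hf) hg
  have h2 := hLtr (τ * g) f' n' _ _ (hchar ℓ' hℓ' hℓ'N hℓ'S P' hP' f' hf') hτg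
  rw [pch_trace_mul_of_eq_one ρ hρτ g] at h2
  apply he M
  have h3 : algebraMap 𝒪' 𝒪'' (χ (heckePow N S hℓ' hℓ'N hℓ'S n' - heckePow N S hℓ hℓN hℓS n)) =
      (ρ.trace g - powTr (algebraMap 𝒪' 𝒪'' (χ (CuspForm.heckeAlgebra.T hℓ hℓN hℓS)))
          ((ℓ : ℕ) : 𝒪'') n) -
        (ρ.trace g - powTr (algebraMap 𝒪' 𝒪'' (χ (CuspForm.heckeAlgebra.T hℓ' hℓ'N hℓ'S)))
          ((ℓ' : ℕ) : 𝒪'') n') := by
    rw [map_sub, map_sub]
    have e1 := pch_map_heckePow ((algebraMap 𝒪' 𝒪'').comp χ) hℓ hℓN hℓS n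
    have e2 := pch_map_heckePow ((algebraMap 𝒪' 𝒪'').comp χ) hℓ' hℓ'N hℓ'S n'
    simp only [RingHom.comp_apply] at e1 e2
    rw [e1, e2]
    ring
  rw [h3]
  exact Ideal.sub_mem _ h1 h2

end Fermat.Agent.S31
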