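import Fermat.Agent.S31.Defs

/-!
# S31, task P0 (REDUCED): the Hecke algebra away from `S ⊇ {q ∣ N}` is reduced

From a positive definite Hermitian form on `S₂(Γ₀(N))` for which all `T_ℓ`, `ℓ ∤ N`, are
self-adjoint (the Petersson statement), every element of the Hecke algebra away from `S`
is self-adjoint (the `U_q` generators do not occur because every prime divisor of `N` is in `S`),
and a self-adjoint operator whose square vanishes is zero.
-/

set_option autoImplicit false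

namespace Fermat.Agent.S31

/-- the space of weight-2 cusp forms of level `Γ₀(N)` -/
abbrev hrd_Sp (N : ℕ) : Type := CuspForm (CongruenceSubgroup.Gamma0 N) 2

/-- self-adjointness of an endomorphism with respect to a form `B` -/
def hrd_SA {N : ℕ} (B : hrd_Sp N → hrd_Sp N → ℂ) (x : Module.End ℂ (hrd_Sp N)) : Prop :=
  ∀ f g, B (x f) g = B f (x g)

section form

variable {N : ℕ} {B : hrd_Sp N → hrd_Sp N → ℂ}

theorem hrd_add_right (hadd : ∀ f g h, B (f + g) h = B f h + B g h)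
    (hherm : ∀ f g, B g f = (starRingEnd ℂ) (B f g)) (f g h : hrd_Sp N) :
    B f (g + h) = B f g + B f h := by
  rw [hherm (g + h) f, hadd, map_add, ← hherm, ← hherm]

theorem hrd_smul_right (hsmul : ∀ (c : ℂ) f g, B (c • f) g = c * B f g)
    (hherm : ∀ f g, B g f = (starRingEnd ℂ) (B f g)) (c : ℂ) (f g : hrd_Sp N) :
    B f (c • g) = (starRingEnd ℂ) c * B f g := by
  rw [hherm (c • g) f, hsmul, map_mul, ← hherm]

theorem hrd_zero_right (hsmul : ∀ (c : ℂ) f g, B (c • f) g = c * B f g)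
    (hherm : ∀ f g, B g f = (starRingEnd ℂ) (B f g)) (f : hrd_Sp N) :
    B f 0 = 0 := by
  have h := hrd_smul_right hsmul hherm 0 f 0
  rw [smul_zero] at h
  rw [h, map_zero, zero_mul]

theorem hrd_SA_algebraMap (hsmul : ∀ (c : ℂ) f g, B (c • f) g = c * B f g)
    (hherm : ∀ f g, B g f = (starRingEnd ℂ) (B f g)) (r : ℤ) :
    hrd_SA B (algebraMap ℤ (Module.End ℂ (hrd_Sp N)) r) := by
  intro f g
  have h1 : ∀ f : hrd_Sp N, (algebraMap ℤ (Module.End ℂ (hrd_Sp N)) r) f = (r : ℂ) • f := by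
    intro f
    rw [Algebra.algebraMap_eq_smul_one, LinearMap.smul_apply, Module.End.one_apply,
      Int.cast_smul_eq_zsmul]
  rw [h1, h1, hsmul, hrd_smul_right hsmul hherm, map_intCast]

theorem hrd_SA_add (hadd : ∀ f g h, B (f + g) h = B f h + B g h)
    (hherm : ∀ f g, B g f = (starRingEnd ℂ) (B f g)) {x y : Module.End ℂ (hrd_Sp N)}
    (hx : hrd_SA B x) (hy : hrd_SA B y) : hrd_SA B (x + y) := by
  intro f g
  rw [LinearMap.add_apply, LinearMap.add_apply, hadd, hrd_add_right hadd hherm, hx, hy]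

theorem hrd_SA_mul {x y : Module.End ℂ (hrd_Sp N)}
    (hx : hrd_SA B x) (hy : hrd_SA B y) (hc : x * y = y * x) : hrd_SA B (x * y) := by
  intro f g
  have h1 : (x * y) f = x (y f) := rfl
  have h2 : (x * y) g = y (x g) := by rw [hc]; rfl
  rw [h1, h2, hx, hy]

theorem hrd_eq_zero_of_sq (hsmul : ∀ (c : ℂ) f g, B (c • f) g = c * B f g)
    (hherm : ∀ f g, B g f = (starRingEnd ℂ) (B f g))
    (hpos : ∀ f, f ≠ 0 → 0 < (B f f).re) {x : Module.End ℂ (hrd_Sp N)}
    (hx : hrd_SA B x) (hsq : x * x = 0) : x = 0 := by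
  ext1 f
  rw [LinearMap.zero_apply]
  by_contra hne
  have h := hpos (x f) hne
  have h0 : B (x f) (x f) = 0 := by
    rw [hx f (x f)]
    have : x (x f) = (x * x) f := rfl
    rw [this, hsq, LinearMap.zero_apply, hrd_zero_right hsmul hherm]
  rw [h0] at h
  simp at h

end form

theorem hrd_SA_of_mem (hP : PeterssonStatement) (N : ℕ) [NeZero N] (S : Finset ℕ)
    (hNS : ∀ q : ℕ, q.Prime → q ∣ N → q ∈ S) :
    ∃ B : hrd_Sp N → hrd_Sp N → ℂ,
      (∀ (c : ℂ) f g, B (c • f) g = c * B f g) ∧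
      (∀ f g, B g f = (starRingEnd ℂ) (B f g)) ∧
      (∀ f, f ≠ 0 → 0 < (B f f).re) ∧
      ∀ x ∈ CuspForm.heckeAlgebra N 2 (↑S : Set ℕ), hrd_SA B x := by
  obtain ⟨B, hadd, hsmul, hherm, hpos, hT⟩ := hP N
  refine ⟨B, hsmul, hherm, hpos, ?_⟩
  intro x hx
  induction hx using Algebra.adjoin_induction with
  | mem x hx =>
    rcases hx with ⟨ℓ, hℓ, hℓN, -, rfl⟩ | ⟨q, hqN, hq, hqS, rfl⟩
    · exact fun f g => hT ℓ hℓ hℓN f g
    · exact absurd (Finset.mem_coe.mpr (hNS q hq hqN)) hqS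
  | algebraMap r => exact hrd_SA_algebraMap hsmul hherm r
  | add x y hx hy ihx ihy => exact hrd_SA_add hadd hherm ihx ihy
  | mul x y hx hy ihx ihy =>
    refine hrd_SA_mul ihx ihy ?_
    have := mul_comm (⟨x, hx⟩ : CuspForm.heckeAlgebra N 2 (↑S : Set ℕ)) ⟨y, hy⟩
    exact congrArg Subtype.val this

/-- **P0 (REDUCED).** -/
theorem heckeReduced : HeckeReducedStatement := by
  intro hP N _ S hNS
  obtain ⟨B, hsmul, hherm, hpos, hSA⟩ := hrd_SA_of_mem hP N S hNS
  rw [isReduced_iff_pow_one_lt 2 one_lt_two]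
  intro x hx
  apply Subtype.ext
  have hsq : (x : Module.End ℂ (hrd_Sp N)) * (x : Module.End ℂ (hrd_Sp N)) = 0 := by
    have := congrArg Subtype.val hx
    rw [pow_two] at this
    exact this
  exact hrd_eq_zero_of_sq hsmul hherm hpos (hSA x.1 x.2) hsq

end Fermat.Agent.S31
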