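import Fermat.Agent.S31.Defs

/-!
# S31, task E5 (SEPASM): the separation property of the Hecke algebra, assembly
-/

set_option autoImplicit false

namespace Fermat.Agent.S31

/-- **E5.** SEP from reducedness, finiteness and ETALESEP. -/
theorem heckeSepAssembly : HeckeSepAssembly := by
  intro hRed hFin hSep p hp N _ S hNS
  have : Module.Finite ℤ (HeckeAlg N S) := hFin N S
  have : IsReduced (HeckeAlg N S) := hRed N S hNS
  have : Module.Free ℤ (HeckeAlg N S) := Module.free_of_finite_type_torsion_free'
  exact hSep p hp (HeckeAlg N S)

end Fermat.Agent.S31
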